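/-
S36lib / Reg / WqSeries  (helper3)

Laurent-series part of `w_q (Δ(t)/Δ(t^q)) = q¹² Δ(t^q)/Δ(t)`.

For a field `k`, `p ≥ 2` invertible in `k`, and modular-polynomial data `D : ModPolyData k p`
(`Φ(J_p; J) = 0`, `J = j(t)`, `J_p = j(t^p)`), put
  `a  = ∂_XΦ(J_p; J)`, `b  = ∂_YΦ(J_p; J)`, `a' = ∂_XΦ(J; J_p)`, `b' = ∂_YΦ(J; J_p)`.
* `nuQ_formula`  : `ν · p⁶ J_p⁴ (J_p − 1728)³ a⁶ = b⁶ J⁴ (J − 1728)³`   (S28lib's (T3), explicit);
* `eval₂_swap_eq_zero` : `Φ(J; J_p) = 0` (the factor `i = 0` of `ModPolyData.factor`);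
* `dPhi_mul_eq`  : `b · b' = a · a'`  (the two differentiated modular equations).
-/
import Mathlib
import Fermat.Agent.S28lib.Theta

set_option autoImplicit false

noncomputable section

open HahnSeries ModularCurve Polynomial

namespace Fermat.Agent.S36lib.Reg

open Fermat.Agent.S28lib

variable {k : Type*} [Field k]

/-- `θ j ≠ 0` -/
theorem theta_jqModC_ne_zero : theta k (jqModC k) ≠ 0 := by
  intro h
  have h6 := theta_jq_pow_six k
  rw [h, zero_pow (by norm_num)] at h6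
  have h1 : jqModC k ≠ 0 := jqModC_ne_zero k
  have h2 : jqModC k - 1728 ≠ 0 := by
    have := qExpand_jqModC_sub_ne_zero (k := k) 1 (1728 : k)
    rw [qExpand_one_apply, map_ofNat] at this
    exact this
  exact mul_ne_zero (mul_ne_zero (pow_ne_zero 4 h1) (pow_ne_zero 3 h2)) (DeltaQ_ne_zero k) h6.symm

section Data

variable {p : ℕ} [NeZero p] (D : ModPolyData k p)

/-- `θ (j(t^p)) ≠ 0` when `p` is invertible -/
theorem theta_qExpand_jqModC_ne_zero (hp : (p : k) ≠ 0) :
    theta k (qExpand k p (jqModC k)) ≠ 0 := by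
  rw [theta_qExpand, nsmul_eq_mul]
  exact mul_ne_zero (natCast_laurent_ne_zero hp) (qExpand_ne_zero p theta_jqModC_ne_zero)

/-- `J = j(t)` is a root of `Φ(X; J_p)`: the factor `i = 0` of the factorisation. -/
theorem eval₂_swap_eq_zero :
    D.Φ.eval₂ (evalJ k (qExpand k p (jqModC k))) (jqModC k) = 0 := by
  rw [Polynomial.eval₂_eq_eval_map, D.factor, Polynomial.eval_mul, Polynomial.eval_prod]
  have hp0 : 0 < p := Nat.pos_of_ne_zero (NeZero.ne p)
  have h0 : (0 : ℕ) ∈ Finset.range p := Finset.mem_range.mpr hp0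
  rw [Finset.prod_eq_zero h0, mul_zero]
  rw [pow_zero, twist_one_unit, Polynomial.eval_sub, Polynomial.eval_X, Polynomial.eval_C,
    sub_self]

/-- the explicit form of S28lib's (T3):
`ν · p⁶ J_p⁴ (J_p − 1728)³ a⁶ = b⁶ J⁴ (J − 1728)³`. -/
theorem nuQ_formula :
    nuQ k p * ((p : LaurentSeries k) ^ 6 * qExpand k p (jqModC k) ^ 4 *
        (qExpand k p (jqModC k) - 1728) ^ 3 *
        (Polynomial.derivative D.Φ).eval₂ (evalJ k (jqModC k)) (qExpand k p (jqModC k)) ^ 6) =
      (dY D.Φ).eval₂ (evalJ k (jqModC k)) (qExpand k p (jqModC k)) ^ 6 *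
        (jqModC k ^ 4 * (jqModC k - 1728) ^ 3) := by
  set J1 : LaurentSeries k := jqModC k with hJ1
  set Jp : LaurentSeries k := qExpand k p J1 with hJp
  set a : LaurentSeries k := (Polynomial.derivative D.Φ).eval₂ (evalJ k J1) Jp with ha
  set b : LaurentSeries k := (dY D.Φ).eval₂ (evalJ k J1) Jp with hb
  -- the differentiated modular equation
  have h0 : b * theta k J1 + a * theta k Jp = 0 := by
    rw [hb, ha, ← theta_eval₂, hJp, hJ1, D.eval₂_eq_zero, map_zero]
  have hθp : theta k Jp = (p : LaurentSeries k) * qExpand k p (theta k J1) := by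
    rw [hJp, theta_qExpand, nsmul_eq_mul]
  -- sixth powers
  have h6 : a ^ 6 * (p : LaurentSeries k) ^ 6 * qExpand k p (theta k J1 ^ 6) =
      b ^ 6 * theta k J1 ^ 6 := by
    have h7 : a * ((p : LaurentSeries k) * qExpand k p (theta k J1)) = -(b * theta k J1) := by
      rw [← hθp]
      exact eq_neg_of_add_eq_zero_right h0
    have h8 : (a * ((p : LaurentSeries k) * qExpand k p (theta k J1))) ^ 6 =
        (-(b * theta k J1)) ^ 6 := by rw [h7]
    rw [map_pow]
    calc a ^ 6 * (p : LaurentSeries k) ^ 6 * qExpand k p (theta k J1) ^ 6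
        = (a * ((p : LaurentSeries k) * qExpand k p (theta k J1))) ^ 6 := by ring
      _ = (-(b * theta k J1)) ^ 6 := h8
      _ = b ^ 6 * theta k J1 ^ 6 := by ring
  have hT := theta_jq_pow_six k
  rw [← hJ1] at hT
  rw [hT] at h6
  simp only [map_mul, map_pow, map_sub, map_ofNat] at h6
  rw [← hJp, ← nuQ_mul_DeltaQ k p] at h6
  -- cancel `Δ`
  have hΔ : DeltaQ k ≠ 0 := DeltaQ_ne_zero k
  apply mul_right_cancel₀ hΔ
  linear_combination h6

/-- **`∂_YΦ(J_p; J) · ∂_YΦ(J; J_p) = ∂_XΦ(J_p; J) · ∂_XΦ(J; J_p)`** -/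
theorem dPhi_mul_eq (hp : (p : k) ≠ 0) :
    (dY D.Φ).eval₂ (evalJ k (jqModC k)) (qExpand k p (jqModC k)) *
        (dY D.Φ).eval₂ (evalJ k (qExpand k p (jqModC k))) (jqModC k) =
      (Polynomial.derivative D.Φ).eval₂ (evalJ k (jqModC k)) (qExpand k p (jqModC k)) *
        (Polynomial.derivative D.Φ).eval₂ (evalJ k (qExpand k p (jqModC k))) (jqModC k) := by
  set J1 : LaurentSeries k := jqModC k with hJ1
  set Jp : LaurentSeries k := qExpand k p J1 with hJp
  set a : LaurentSeries k := (Polynomial.derivative D.Φ).eval₂ (evalJ k J1) Jp with ha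
  set b : LaurentSeries k := (dY D.Φ).eval₂ (evalJ k J1) Jp with hb
  set a' : LaurentSeries k := (Polynomial.derivative D.Φ).eval₂ (evalJ k Jp) J1 with ha'
  set b' : LaurentSeries k := (dY D.Φ).eval₂ (evalJ k Jp) J1 with hb'
  have h0 : b * theta k J1 + a * theta k Jp = 0 := by
    rw [hb, ha, ← theta_eval₂, hJp, hJ1, D.eval₂_eq_zero, map_zero]
  have h1 : b' * theta k Jp + a' * theta k J1 = 0 := by
    rw [hb', ha', ← theta_eval₂, hJp, hJ1, eval₂_swap_eq_zero D, map_zero]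
  have hθ1 : theta k J1 ≠ 0 := theta_jqModC_ne_zero
  have hθp : theta k Jp ≠ 0 := theta_qExpand_jqModC_ne_zero hp
  have hmul : (b * b' - a * a') * (theta k J1 * theta k Jp) = 0 := by
    linear_combination (b' * theta k Jp) * h0 - (a * theta k Jp) * h1
  rcases mul_eq_zero.mp hmul with h | h
  · exact sub_eq_zero.mp h
  · exact absurd h (mul_ne_zero hθ1 hθp)

end Data

end Fermat.Agent.S36lib.Reg
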