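/-
S36lib / Reg / WqUnit  (helper3)

**`w_q (Δ(t)/Δ(t^q)) = q¹² Δ(t^q)/Δ(t)`** on `FBar (M q)`, `q ∤ M`:

  `wq_X0F : Val.wq M q hq hqM (X0F (M * q) q _) = Y0F (M * q) q _`.

LSb's unit `Yw` is DEFINED as `wq X0F` and only `D2.redF Yw = H₂` is known there; this identity gives
`Yw = Y0F`, `X0F * Yw = q¹²`, i.e. `v₁₀(Yw) = 12` exactly with `red₁ (q¹²/Yw) = H₂`.

Proof (no analysis): S28lib's `θ`-formula (explicit form `Reg.nuQ_formula`)
  `ν · q⁶ J_q⁴ (J_q − 1728)³ a⁶ = b⁶ J⁴ (J − 1728)³`,  `a = ∂_XΦ(J_q; J)`, `b = ∂_YΦ(J_q; J)`,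
is an identity in `FBar (M q)`; `w_q` swaps `J = j(t)` and `J_q = j(t^q)`, and
`b · w_q b = a · w_q a` (`Reg.dPhi_mul_eq`), so `ν · w_q ν = q⁻¹²`.
-/
import Mathlib
import Fermat.Agent.S36lib.Reg.WqSeries
import Fermat.Agent.LSb.Unit.ModRed
import Fermat.Agent.S28lib.PhiP

set_option autoImplicit false
set_option linter.unusedSectionVars false

noncomputable section

namespace Fermat.Agent.S36lib.Reg

open AlgebraicCurve ModularCurve HahnSeries Polynomial
open Fermat.Agent.S18lib Fermat.Agent.S28lib Fermat.Agent.S28lib.BrickB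
open Fermat.Agent.ProgramR Fermat.Agent.LSb Fermat.Agent.LSb.Unit

local notation "Qb" => AlgebraicClosure ℚ
local notation "Zb" => integralClosure ℤ ℂ

/-! ### bivariate evaluation in `FBar N` -/

section Ev2

variable {N : ℕ} [NeZero N]

/-- `P(v; u)`: the outer variable of `P` is evaluated at `v`, the inner one at `u` -/
def ev2 (u v : FBar N) (P : Polynomial (Polynomial Qb)) : FBar N :=
  P.eval₂ ((Polynomial.aeval u : Polynomial Qb →ₐ[Qb] FBar N) : Polynomial Qb →+* FBar N) v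

theorem coe_aeval_FBar (u : FBar N) (c : Polynomial Qb) :
    ((Polynomial.aeval u c : FBar N) : LaurentSeries Qb) = evalJ Qb (u : LaurentSeries Qb) c := by
  have h2 := Polynomial.aeval_algHom_apply (modularFunctionFieldBar N).val u c
  rw [IntermediateField.coe_val] at h2
  rw [← h2]
  rfl

theorem coe_ev2 (u v : FBar N) (P : Polynomial (Polynomial Qb)) :
    ((ev2 u v P : FBar N) : LaurentSeries Qb) =
      P.eval₂ (evalJ Qb (u : LaurentSeries Qb)) (v : LaurentSeries Qb) := by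
  rw [ev2, Polynomial.eval₂_eq_sum_range, Polynomial.eval₂_eq_sum_range,
    AddSubmonoidClass.coe_finsetSum]
  refine Finset.sum_congr rfl fun i _ => ?_
  rw [MulMemClass.coe_mul, SubmonoidClass.coe_pow]
  congr 1
  exact coe_aeval_FBar u _

theorem map_ev2 {N' : ℕ} [NeZero N'] (φ : FBar N →ₐ[Qb] FBar N') (u v : FBar N)
    (P : Polynomial (Polynomial Qb)) : φ (ev2 u v P) = ev2 (φ u) (φ v) P := by
  rw [ev2, ev2]
  have h := Polynomial.hom_eval₂ P
    ((Polynomial.aeval u : Polynomial Qb →ₐ[Qb] FBar N) : Polynomial Qb →+* FBar N)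
    (φ : FBar N →+* FBar N') v
  have hc : (φ : FBar N →+* FBar N').comp
      ((Polynomial.aeval u : Polynomial Qb →ₐ[Qb] FBar N) : Polynomial Qb →+* FBar N) =
      ((Polynomial.aeval (φ u) : Polynomial Qb →ₐ[Qb] FBar N') : Polynomial Qb →+* FBar N') := by
    refine RingHom.ext fun c => ?_
    simp only [RingHom.comp_apply, RingHom.coe_coe]
    exact (Polynomial.aeval_algHom_apply φ u c).symm
  rw [hc] at h
  exact h

end Ev2

/-! ### the identity -/

section Main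

variable (M q : ℕ) [NeZero M] [NeZero q] [hq : Fact q.Prime] (hqM : ¬ q ∣ M)

/-- `j(t)` and `j(t^q)` at level `M q` -/
local notation "JF" => Gin0.jF (M * q)
local notation "JB" => S37lib.ConjNorm.jBeta M q

theorem wq_jBeta : Val.wq M q hq.out hqM (S37lib.ConjNorm.jBeta M q) = Gin0.jF (M * q) := by
  rw [← wq_jF hqM, Val.wq_wq]

theorem natCast_ne_zero_Qb' : (q : Qb) ≠ 0 := by
  exact_mod_cast hq.out.ne_zero

/-- the modular polynomial data over `ℚ̄` -/
def phiData : ModPolyData Qb q :=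
  modPolyData_of_ringHom q (Gink.intToQbar : Zb →+* Qb) (natCast_ne_zero_Qb' q)

/-- **`X0F · w_q(X0F) = q¹²`** -/
theorem X0F_mul_wq_X0F :
    X0F (M * q) q (dvd_level M q) * Val.wq M q hq.out hqM (X0F (M * q) q (dvd_level M q)) =
      algebraMap Qb (FBar (M * q)) ((q : Qb) ^ 12) := by
  set D := phiData q with hD
  set W := Val.wq M q hq.out hqM with hW
  set X := X0F (M * q) q (dvd_level M q) with hX
  have hq2 : 2 ≤ q := hq.out.two_le
  have hq0 : (q : Qb) ≠ 0 := natCast_ne_zero_Qb' q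
  -- the four partial derivatives
  set a : FBar (M * q) := ev2 JF JB (Polynomial.derivative D.Φ) with ha
  set b : FBar (M * q) := ev2 JF JB (dY D.Φ) with hb
  set a' : FBar (M * q) := ev2 JB JF (Polynomial.derivative D.Φ) with ha'
  set b' : FBar (M * q) := ev2 JB JF (dY D.Φ) with hb'
  have hcJ : ((JF : FBar (M * q)) : LaurentSeries Qb) = jqModC Qb := Gin0.coe_jF (M * q)
  have hcB : ((JB : FBar (M * q)) : LaurentSeries Qb) = qExpand Qb q (jqModC Qb) :=
    S37lib.ConjNorm.coe_jBeta M q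
  have hWa : W a = a' := by
    rw [ha, ha', hW, ← AlgEquiv.coe_toAlgHom, map_ev2]
    simp only [AlgEquiv.coe_toAlgHom]
    rw [wq_jF hqM, wq_jBeta M q hqM]
  have hWb : W b = b' := by
    rw [hb, hb', hW, ← AlgEquiv.coe_toAlgHom, map_ev2]
    simp only [AlgEquiv.coe_toAlgHom]
    rw [wq_jF hqM, wq_jBeta M q hqM]
  -- the constants
  set c6 : FBar (M * q) := algebraMap Qb (FBar (M * q)) ((q : Qb) ^ 6) with hc6
  set c1728 : FBar (M * q) := algebraMap Qb (FBar (M * q)) 1728 with hc1728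
  have hcc6 : ((c6 : FBar (M * q)) : LaurentSeries Qb) = (q : LaurentSeries Qb) ^ 6 := by
    rw [hc6]
    show algebraMap Qb (LaurentSeries Qb) ((q : Qb) ^ 6) = _
    rw [map_pow, map_natCast]
  have hcc1728 : ((c1728 : FBar (M * q)) : LaurentSeries Qb) = (1728 : LaurentSeries Qb) := by
    rw [hc1728]
    show algebraMap Qb (LaurentSeries Qb) 1728 = _
    rw [map_ofNat]
  -- the `θ`-formula in `FBar (M q)`:  `c6 JB⁴ (JB − 1728)³ a⁶ = X · b⁶ JF⁴ (JF − 1728)³`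
  have hform : c6 * JB ^ 4 * (JB - c1728) ^ 3 * a ^ 6 = X * (b ^ 6 * (JF ^ 4 * (JF - c1728) ^ 3)) := by
    apply Subtype.ext
    have h1 := nuQ_formula (k := Qb) D
    have h2 : X0 Qb q * nuQ Qb q = 1 := X0_mul_nuQ q
    simp only [MulMemClass.coe_mul, SubmonoidClass.coe_pow, AddSubgroupClass.coe_sub, hcc6,
      hcc1728, hcJ, hcB, ha, hb, coe_ev2, hX, coe_X0F]
    linear_combination (X0 Qb q) * h1 - (((q : LaurentSeries Qb) ^ 6 *
      qExpand Qb q (jqModC Qb) ^ 4 * (qExpand Qb q (jqModC Qb) - 1728) ^ 3 *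
      (Polynomial.derivative D.Φ).eval₂ (evalJ Qb (jqModC Qb)) (qExpand Qb q (jqModC Qb)) ^ 6)) * h2
  -- its mirror under `w_q`
  have hWc6 : W c6 = c6 := by rw [hc6, hW]; exact AlgEquiv.commutes _ _
  have hWc1728 : W c1728 = c1728 := by rw [hc1728, hW]; exact AlgEquiv.commutes _ _
  have hmirror : c6 * JF ^ 4 * (JF - c1728) ^ 3 * a' ^ 6 =
      W X * (b' ^ 6 * (JB ^ 4 * (JB - c1728) ^ 3)) := by
    have := congrArg W hform
    simp only [map_mul, map_pow, map_sub, hWa, hWb, hWc6, hWc1728] at this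
    rw [hW, wq_jF hqM, wq_jBeta M q hqM] at this
    exact this
  -- `b b' = a a'`
  have hbb : b * b' = a * a' := by
    apply Subtype.ext
    have h1 := dPhi_mul_eq (k := Qb) D hq0
    simp only [MulMemClass.coe_mul, ha, hb, ha', hb', coe_ev2, hcJ, hcB]
    exact h1
  -- nonvanishing
  have ha0 : a ≠ 0 := by
    intro h0
    have h1 := congrArg (fun x : FBar (M * q) => (x : LaurentSeries Qb)) h0
    simp only [ha, coe_ev2, hcJ, hcB, ZeroMemClass.coe_zero] at h1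
    exact D.derivative_eval₂_ne_zero hq2 h1
  have ha'0 : a' ≠ 0 := by
    rw [← hWa]
    exact (_root_.map_ne_zero W).2 ha0
  have hJ0 : (JF : FBar (M * q)) ≠ 0 := by
    intro h0
    have h1 := congrArg (fun x : FBar (M * q) => (x : LaurentSeries Qb)) h0
    simp only [hcJ, ZeroMemClass.coe_zero] at h1
    exact jqModC_ne_zero Qb h1
  have hB0 : (JB : FBar (M * q)) ≠ 0 := by
    rw [← wq_jF hqM]
    exact (_root_.map_ne_zero _).2 hJ0
  have hJ1 : (JF : FBar (M * q)) - c1728 ≠ 0 := by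
    intro h0
    apply Gin0.transcendental_jF (M * q)
    rw [sub_eq_zero.1 h0]
    exact isAlgebraic_algebraMap _
  have hB1 : (JB : FBar (M * q)) - c1728 ≠ 0 := by
    have : W (JF - c1728) = JB - c1728 := by
      rw [map_sub, hWc1728, hW, wq_jF hqM]
    rw [← this]
    exact (_root_.map_ne_zero W).2 hJ1
  -- multiply the two formulas and cancel
  set B : FBar (M * q) := JF ^ 4 * (JF - c1728) ^ 3 * (JB ^ 4 * (JB - c1728) ^ 3) * (a * a') ^ 6
    with hBdef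
  have hB : B ≠ 0 :=
    mul_ne_zero (mul_ne_zero (mul_ne_zero (pow_ne_zero 4 hJ0) (pow_ne_zero 3 hJ1))
      (mul_ne_zero (pow_ne_zero 4 hB0) (pow_ne_zero 3 hB1))) (pow_ne_zero 6 (mul_ne_zero ha0 ha'0))
  have hprod : (c6 * c6) * B = (X * W X) * B := by
    have hb6 : (b * b') ^ 6 = (a * a') ^ 6 := by rw [hbb]
    rw [hBdef]
    linear_combination (c6 * JF ^ 4 * (JF - c1728) ^ 3 * a' ^ 6) * hform +
      (X * (b ^ 6 * (JF ^ 4 * (JF - c1728) ^ 3))) * hmirror +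
      (X * W X * (JF ^ 4 * (JF - c1728) ^ 3) * (JB ^ 4 * (JB - c1728) ^ 3)) * hb6
  have h12 : c6 * c6 = algebraMap Qb (FBar (M * q)) ((q : Qb) ^ 12) := by
    rw [hc6, ← map_mul, ← _root_.pow_add]
  rw [← h12]
  exact (mul_right_cancel₀ hB hprod).symm

/-- **`w_q (Δ(t)/Δ(t^q)) = q¹² Δ(t^q)/Δ(t)`** -/
theorem wq_X0F :
    Val.wq M q hq.out hqM (X0F (M * q) q (dvd_level M q)) = Y0F (M * q) q (dvd_level M q) := by
  have h1 := X0F_mul_wq_X0F M q hqM
  have h2 := X0F_mul_Y0F (M * q) q (dvd_level M q)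
  exact mul_left_cancel₀ (X0F_ne_zero (M * q) q (dvd_level M q)) (h1.trans h2.symm)

/-- LSb's unit `Yw` is `q¹² Δ(t^q)/Δ(t)` -/
theorem Yw_eq_Y0F : Yw M q hqM = Y0F (M * q) q (dvd_level M q) := wq_X0F M q hqM

theorem X0F_mul_Yw :
    X0F (M * q) q (dvd_level M q) * Yw M q hqM = algebraMap Qb (FBar (M * q)) ((q : Qb) ^ 12) :=
  X0F_mul_wq_X0F M q hqM

/-- `w_q (q¹² Δ(t^q)/Δ(t)) = Δ(t)/Δ(t^q)` -/
theorem wq_Y0F :
    Val.wq M q hq.out hqM (Y0F (M * q) q (dvd_level M q)) = X0F (M * q) q (dvd_level M q) := by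
  rw [← wq_X0F M q hqM, Val.wq_wq]

end Main

/-! ### consequences for the two Gauss valuations of level `M q` -/

section Red

variable {M q : ℕ} [NeZero M] [NeZero q] [hq : Fact q.Prime]
variable {A : ValuationSubring (AlgebraicClosure ℚ)}
variable (hqM : ¬ q ∣ M) (hA : A.LiesOverPrime q)
variable {D1 D2 : GaussDatum A (FBar (M * q)) (FRes A M)}
variable (h1 : Old.IsGaussOne D1) (h2 : Old.IsGaussTwo D1 D2 (wqR M q hqM))

include h2 in
/-- `red₂ (q¹² Δ(t^q)/Δ(t)) = H₂` -/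
theorem redF₂_Y0F : D2.redF (Y0F (M * q) q (dvd_level M q)) = H₂ D1 := by
  rw [← Yw_eq_Y0F M q hqM]
  exact redF₂_Yw hqM h2

include h1 in
/-- `(q¹² Δ(t^q)/Δ(t)) / q¹² = (Δ(t)/Δ(t^q))⁻¹` lies in `O₁` with reduction `H₂⁻¹`:
`v₁₀(Y0F) = 12` exactly. -/
theorem Y0F_div_mem₁ :
    Y0F (M * q) q (dvd_level M q) * (algebraMap Qb (FBar (M * q)) ((q : Qb) ^ 12))⁻¹ ∈ D1.O ∧
      D1.redF (Y0F (M * q) q (dvd_level M q) *
        (algebraMap Qb (FBar (M * q)) ((q : Qb) ^ 12))⁻¹) = (H₂ D1)⁻¹ := by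
  have hne : D1.redF (X0F (M * q) q (dvd_level M q)) ≠ 0 := H₂_ne_zero h1
  have he : Y0F (M * q) q (dvd_level M q) * (algebraMap Qb (FBar (M * q)) ((q : Qb) ^ 12))⁻¹ =
      (X0F (M * q) q (dvd_level M q))⁻¹ := by
    rw [X0F_inv_eq, map_inv₀]
    exact mul_comm _ _
  rw [he]
  exact ⟨D1.inv_mem_of_redF_ne_zero hne, D1.redF_inv hne⟩

include h1 h2 in
/-- `(Δ(t)/Δ(t^q)) / q¹² = (w_q (Δ(t)/Δ(t^q)))⁻¹` lies in `O₂` with reduction `H₂⁻¹`:
`v₀₁(X0F) = 12` exactly. -/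
theorem X0F_div_mem₂ :
    X0F (M * q) q (dvd_level M q) * (algebraMap Qb (FBar (M * q)) ((q : Qb) ^ 12))⁻¹ ∈ D2.O ∧
      D2.redF (X0F (M * q) q (dvd_level M q) *
        (algebraMap Qb (FBar (M * q)) ((q : Qb) ^ 12))⁻¹) = (H₂ D1)⁻¹ := by
  have hne : D2.redF (Yw M q hqM) ≠ 0 := by
    rw [redF₂_Yw hqM h2]; exact H₂_ne_zero h1
  have hY0 : Yw M q hqM ≠ 0 := by
    rintro h0
    rw [h0] at hne
    exact hne D2.redF_zero
  have hc : algebraMap Qb (FBar (M * q)) ((q : Qb) ^ 12) ≠ 0 :=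
    (_root_.map_ne_zero _).2 (pow_ne_zero 12 (natCast_ne_zero_Qb' q))
  have he : X0F (M * q) q (dvd_level M q) * (algebraMap Qb (FBar (M * q)) ((q : Qb) ^ 12))⁻¹ =
      (Yw M q hqM)⁻¹ := by
    have hX0 := X0F_ne_zero (M * q) q (dvd_level M q)
    rw [← X0F_mul_Yw M q hqM]
    field_simp
  rw [he]
  refine ⟨D2.inv_mem_of_redF_ne_zero hne, ?_⟩
  rw [D2.redF_inv hne, redF₂_Yw hqM h2]

end Red

end Fermat.Agent.S36lib.Reg
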