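/-
S36lib / Reg / Abstract  (helper8)  --  brick B4 (REG), abstract part

**Thickness one at a triple point from (GLUE) and three modular units.**

Setting: a field `F` with three bare places `P₁ P₂ P₃` (valuation ring + reduction map, helper7's
`Norm.Place`; in the application `v₂₀`, `v₁₁`, `v₀₂` at level `M q²`), residue fields `κ₁ κ₂ κ₃`
= function fields over `k`, and a TRIPLE POINT `(x₁, x₂, x₃)`.  `S ⊆ F` is a subring of functions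
(in the application: poles on the charts only) for which (GLUE) holds: every `f ∈ S ∩ O₁ ∩ O₂ ∩ O₃`
has reductions which are regular at `x₁, x₂, x₃` with a COMMON VALUE.

Input:
* units `E₁ E₂ E₃` of `S` with `E₁ E₂ E₃ = π ^ m` and "valuations" `(m,0,0)`, `(0,m,0)`, `(0,0,m)`
  (in the application `q¹²Δ(q²z)/Δ(qz)`, `Δ(qz)²/(Δ(z)Δ(q²z))`, `Δ(z)/Δ(qz)`, `m = 12`), whose
  reductions on a component where they are units vanish to the EXACT orders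
  `ord_{x₃} red₃ E₁ = m`, `ord_{x₁} red₁ E₃ = m`, `ord_{x₁} red₁ E₂ = e m`;
* `f₁` with `f₁ / π ∈ O₁` and `red₃ f₁` a SIMPLE zero at `x₃`;  `f₃` with `f₃ / π ∈ O₃` and
  `red₁ f₃` a simple zero at `x₁`;  `ϖ` with `ϖ ^ e / π ∈ O₂` (automatic from `v₂(ϖ) > 0` when the
  value group of `O₂` is `(1/e) ℤ`) and `red₁ ϖ` a simple zero at `x₁`.

Output (`RegData.main`): `f₁ / π`, `f₃ / π`, `ϖ ^ e / π` are UNITS of `O₁`, `O₃`, `O₂`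
(so `ϖ` is a uniformizer of `O₂`), and `U = f₁ f₃ ϖ ^ e / π` has a NONZERO value at the triple point:
the local equation of the special fibre is `π = unit · f₁ · ϖ ^ e · f₃`.

Proof: `R₁ = f₁ ^ m / E₁`, `R₂ = ϖ ^ (e m) / E₂`, `R₃ = f₃ ^ m / E₃` lie in `S ∩ O₁ ∩ O₂ ∩ O₃`; on the
component where the orders are known their reduction has order `0` at the triple point, i.e. a
nonzero value; by (GLUE) the same nonzero value appears on the component where the valuation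
might have been positive, so it is not; and `U ^ m = R₁ R₂ R₃`.
No Kronecker congruence mod `q²`, no regular local rings.
-/
import Mathlib
import Fermat.Agent.LSb.Core.Value
import Fermat.Agent.S36lib.Norm.Place

set_option autoImplicit false

noncomputable section

namespace Fermat.Agent.S36lib.Reg

open AlgebraicCurve
open Fermat.Agent.LSb (HasValueAt)

/-! ### values and orders -/

section Value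

variable {K Fk : Type*} [Field K] [Field Fk] [Algebra K Fk] {Q : Place K Fk}

/-- at a place of degree one, a nonzero function of order `0` has a nonzero value -/
theorem exists_hasValueAt_ne_zero (hQ : Q.deg = 1) {z : Fk} (hz : z ≠ 0) (h0 : Q.ord z = 0) :
    ∃ c : K, c ≠ 0 ∧ HasValueAt Q z c := by
  have hle : Q.adicValuation z ≤ 1 := Q.adicValuation_le_one_iff.2 (Or.inr h0.ge)
  obtain ⟨c, hc⟩ := LSb.exists_hasValueAt hQ hle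
  refine ⟨c, ?_, hc⟩
  rintro rfl
  rcases LSb.hasValueAt_zero_iff.1 hc with h | h
  · exact hz h
  · omega

/-- a function with a nonzero order is nonzero -/
theorem ne_zero_of_ord_ne_zero {z : Fk} (h : Q.ord z ≠ 0) : z ≠ 0 := by
  rintro rfl
  exact h Q.ord_zero

/-- `ord (a ^ n * b⁻¹) = n ord a - ord b` -/
theorem ord_pow_mul_inv {a b : Fk} (ha : a ≠ 0) (hb : b ≠ 0) (n : ℕ) :
    Q.ord (a ^ n * b⁻¹) = n * Q.ord a - Q.ord b := by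
  rw [Q.ord_mul (pow_ne_zero n ha) (inv_ne_zero hb), S18lib.Cech.ord_pow, Q.ord_inv]
  ring

end Value

variable {F : Type*} [Field F] {k : Type*} [Field k]
variable {κ₁ κ₂ κ₃ : Type*} [Field κ₁] [Field κ₂] [Field κ₃]
variable [Algebra k κ₁] [Algebra k κ₂] [Algebra k κ₃]

/-- **(GLUE) at a triple point** for the functions of a set `S`: the three reductions of every
`f ∈ S` which is integral for the three places have a common value. -/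
def GlueAt (P₁ : Norm.Place F κ₁) (P₂ : Norm.Place F κ₂) (P₃ : Norm.Place F κ₃)
    (x₁ : Place k κ₁) (x₂ : Place k κ₂) (x₃ : Place k κ₃) (S : Set F) : Prop :=
  ∀ f ∈ S, f ∈ P₁.O → f ∈ P₂.O → f ∈ P₃.O → ∃ α : k,
    HasValueAt x₁ (P₁.redF f) α ∧ HasValueAt x₂ (P₂.redF f) α ∧ HasValueAt x₃ (P₃.redF f) α

section Glue

variable {P₁ : Norm.Place F κ₁} {P₂ : Norm.Place F κ₂} {P₃ : Norm.Place F κ₃}
variable {x₁ : Place k κ₁} {x₂ : Place k κ₂} {x₃ : Place k κ₃} {S : Set F}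

/-- a nonzero value on the first component propagates to the other two -/
theorem GlueAt.of_value₁ (hG : GlueAt P₁ P₂ P₃ x₁ x₂ x₃ S) {f : F} (hf : f ∈ S) (h1 : f ∈ P₁.O)
    (h2 : f ∈ P₂.O) (h3 : f ∈ P₃.O) {α : k} (hα : HasValueAt x₁ (P₁.redF f) α) :
    HasValueAt x₂ (P₂.redF f) α ∧ HasValueAt x₃ (P₃.redF f) α := by
  obtain ⟨β, hβ1, hβ2, hβ3⟩ := hG f hf h1 h2 h3
  rw [hα.unique hβ1]
  exact ⟨hβ2, hβ3⟩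

/-- a nonzero value on the third component propagates to the other two -/
theorem GlueAt.of_value₃ (hG : GlueAt P₁ P₂ P₃ x₁ x₂ x₃ S) {f : F} (hf : f ∈ S) (h1 : f ∈ P₁.O)
    (h2 : f ∈ P₂.O) (h3 : f ∈ P₃.O) {α : k} (hα : HasValueAt x₃ (P₃.redF f) α) :
    HasValueAt x₁ (P₁.redF f) α ∧ HasValueAt x₂ (P₂.redF f) α := by
  obtain ⟨β, hβ1, hβ2, hβ3⟩ := hG f hf h1 h2 h3
  rw [hα.unique hβ3]
  exact ⟨hβ1, hβ2⟩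

end Glue

/-- a function with a nonzero value is nonzero -/
theorem redF_ne_zero_of_hasValueAt {κ : Type*} [Field κ] [Algebra k κ] (P : Norm.Place F κ)
    {x : Place k κ} {f : F} {α : k} (h : HasValueAt x (P.redF f) α) (hα : α ≠ 0) :
    P.redF f ≠ 0 := h.ne_zero hα

/-- **The input of (REG) at one triple point.** -/
structure RegData (P₁ : Norm.Place F κ₁) (P₂ : Norm.Place F κ₂) (P₃ : Norm.Place F κ₃)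
    (x₁ : Place k κ₁) (x₂ : Place k κ₂) (x₃ : Place k κ₃) (S : Subring F)
    (π : F) (e m : ℕ) (E₁ E₂ E₃ f₁ f₃ ϖ : F) : Prop where
  /-- (GLUE) -/
  glue : GlueAt P₁ P₂ P₃ x₁ x₂ x₃ (S : Set F)
  deg₁ : x₁.deg = 1
  deg₃ : x₃.deg = 1
  m_pos : 0 < m
  π_ne : π ≠ 0
  π_inv_mem : π⁻¹ ∈ S
  -- the three units
  E₁_inv_mem : E₁⁻¹ ∈ S
  E₂_inv_mem : E₂⁻¹ ∈ S
  E₃_inv_mem : E₃⁻¹ ∈ S
  E_mul : E₁ * E₂ * E₃ = π ^ m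
  /-- `E₁` has "valuations" `(m, 0, 0)` -/
  E₁_red₁ : P₁.redF (E₁ * (π ^ m)⁻¹) ≠ 0
  E₁_red₂ : P₂.redF E₁ ≠ 0
  E₁_red₃ : P₃.redF E₁ ≠ 0
  /-- `E₃` has "valuations" `(0, 0, m)` -/
  E₃_red₁ : P₁.redF E₃ ≠ 0
  E₃_red₂ : P₂.redF E₃ ≠ 0
  E₃_red₃ : P₃.redF (E₃ * (π ^ m)⁻¹) ≠ 0
  /-- exact orders of the reductions at the triple point -/
  ord_E₁ : x₃.ord (P₃.redF E₁) = m
  ord_E₃ : x₁.ord (P₁.redF E₃) = m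
  ord_E₂ : x₁.ord (P₁.redF E₂) = e * m
  -- the local equation of the first component
  f₁_mem : f₁ ∈ S
  f₁_mem₁ : f₁ * π⁻¹ ∈ P₁.O
  f₁_mem₂ : f₁ ∈ P₂.O
  f₁_mem₃ : f₁ ∈ P₃.O
  ord_f₁ : x₃.ord (P₃.redF f₁) = 1
  -- the local equation of the third component
  f₃_mem : f₃ ∈ S
  f₃_mem₁ : f₃ ∈ P₁.O
  f₃_mem₂ : f₃ ∈ P₂.O
  f₃_mem₃ : f₃ * π⁻¹ ∈ P₃.O
  ord_f₃ : x₁.ord (P₁.redF f₃) = 1
  -- the local equation of the (reduced) middle component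
  ϖ_mem : ϖ ∈ S
  ϖ_mem₁ : ϖ ∈ P₁.O
  ϖ_mem₂ : ϖ ^ e * π⁻¹ ∈ P₂.O
  ϖ_mem₃ : ϖ ∈ P₃.O
  ord_ϖ : x₁.ord (P₁.redF ϖ) = 1

namespace RegData

variable {P₁ : Norm.Place F κ₁} {P₂ : Norm.Place F κ₂} {P₃ : Norm.Place F κ₃}
variable {x₁ : Place k κ₁} {x₂ : Place k κ₂} {x₃ : Place k κ₃} {S : Subring F}
variable {π : F} {e m : ℕ} {E₁ E₂ E₃ f₁ f₃ ϖ : F}
variable (h : RegData P₁ P₂ P₃ x₁ x₂ x₃ S π e m E₁ E₂ E₃ f₁ f₃ ϖ)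

include h

theorem πm_ne : π ^ m ≠ 0 := pow_ne_zero m h.π_ne

theorem E₁_ne : E₁ ≠ 0 := by
  rintro rfl
  exact h.E₁_red₂ P₂.redF_zero

theorem E₃_ne : E₃ ≠ 0 := by
  rintro rfl
  exact h.E₃_red₂ P₂.redF_zero

theorem E₂_ne : E₂ ≠ 0 := by
  rintro rfl
  have := h.E_mul
  rw [mul_zero, zero_mul] at this
  exact h.πm_ne this.symm

/-- `E₂ = (π ^ m / E₁)⁻¹⁻¹ ⋯`: the middle unit in terms of the other two -/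
theorem E₂_eq : E₂ = (E₁ * (π ^ m)⁻¹)⁻¹ * E₃⁻¹ := by
  have h1 := h.E₁_ne
  have h3 := h.E₃_ne
  have hπ := h.πm_ne
  have := h.E_mul
  field_simp
  rw [← this]
  ring

theorem E₂_eq' : E₂ = E₁⁻¹ * (E₃ * (π ^ m)⁻¹)⁻¹ := by
  have h1 := h.E₁_ne
  have h3 := h.E₃_ne
  have hπ := h.πm_ne
  have := h.E_mul
  field_simp
  rw [← this]
  ring

/-- `E₂` is a unit of `O₁` -/
theorem E₂_red₁ : P₁.redF E₂ ≠ 0 := by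
  rw [h.E₂_eq, P₁.redF_mul (P₁.inv_mem_of_redF_ne_zero h.E₁_red₁)
    (P₁.inv_mem_of_redF_ne_zero h.E₃_red₁), P₁.redF_inv h.E₁_red₁, P₁.redF_inv h.E₃_red₁]
  exact mul_ne_zero (inv_ne_zero h.E₁_red₁) (inv_ne_zero h.E₃_red₁)

/-- `E₂` is a unit of `O₃` -/
theorem E₂_red₃ : P₃.redF E₂ ≠ 0 := by
  rw [h.E₂_eq', P₃.redF_mul (P₃.inv_mem_of_redF_ne_zero h.E₁_red₃)
    (P₃.inv_mem_of_redF_ne_zero h.E₃_red₃), P₃.redF_inv h.E₁_red₃, P₃.redF_inv h.E₃_red₃]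
  exact mul_ne_zero (inv_ne_zero h.E₁_red₃) (inv_ne_zero h.E₃_red₃)

/-- `π ^ m / E₂ = E₁ E₃` is a unit of `O₂` -/
theorem πm_div_E₂ : π ^ m * E₂⁻¹ = E₁ * E₃ := by
  have h2 := h.E₂_ne
  have := h.E_mul
  field_simp
  rw [← this]
  ring

theorem E₂_red₂ : P₂.redF (π ^ m * E₂⁻¹) ≠ 0 := by
  rw [h.πm_div_E₂, P₂.redF_mul (P₂.mem_of_redF_ne_zero h.E₁_red₂)
    (P₂.mem_of_redF_ne_zero h.E₃_red₂)]
  exact mul_ne_zero h.E₁_red₂ h.E₃_red₂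

/-! ### the three auxiliary units `R₁ R₂ R₃` -/

/-- `R₁ = f₁ ^ m / E₁` -/
theorem R₁_eq : f₁ ^ m * E₁⁻¹ = (f₁ * π⁻¹) ^ m * (E₁ * (π ^ m)⁻¹)⁻¹ := by
  have hπ : (π ^ m)⁻¹ * π ^ m = 1 := inv_mul_cancel₀ h.πm_ne
  rw [mul_pow, mul_inv, inv_inv, inv_pow]
  calc f₁ ^ m * E₁⁻¹ = f₁ ^ m * E₁⁻¹ * ((π ^ m)⁻¹ * π ^ m) := by rw [hπ, mul_one]
    _ = _ := by ring

theorem R₁_mem : f₁ ^ m * E₁⁻¹ ∈ S :=
  S.mul_mem (S.pow_mem h.f₁_mem m) h.E₁_inv_mem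

theorem R₁_mem₁ : f₁ ^ m * E₁⁻¹ ∈ P₁.O := by
  rw [h.R₁_eq]
  exact P₁.O.mul_mem _ _ (P₁.O.pow_mem h.f₁_mem₁ m) (P₁.inv_mem_of_redF_ne_zero h.E₁_red₁)

theorem R₁_mem₂ : f₁ ^ m * E₁⁻¹ ∈ P₂.O :=
  P₂.O.mul_mem _ _ (P₂.O.pow_mem h.f₁_mem₂ m) (P₂.inv_mem_of_redF_ne_zero h.E₁_red₂)

theorem R₁_mem₃ : f₁ ^ m * E₁⁻¹ ∈ P₃.O :=
  P₃.O.mul_mem _ _ (P₃.O.pow_mem h.f₁_mem₃ m) (P₃.inv_mem_of_redF_ne_zero h.E₁_red₃)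

/-- `R₁` has a nonzero value at the triple point (computed on the third component) -/
theorem exists_value_R₁ : ∃ α : k, α ≠ 0 ∧ HasValueAt x₁ (P₁.redF (f₁ ^ m * E₁⁻¹)) α ∧
    HasValueAt x₂ (P₂.redF (f₁ ^ m * E₁⁻¹)) α ∧ HasValueAt x₃ (P₃.redF (f₁ ^ m * E₁⁻¹)) α := by
  have hf : P₃.redF f₁ ≠ 0 := ne_zero_of_ord_ne_zero (Q := x₃) (by rw [h.ord_f₁]; norm_num)
  have hred : P₃.redF (f₁ ^ m * E₁⁻¹) = P₃.redF f₁ ^ m * (P₃.redF E₁)⁻¹ := by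
    rw [P₃.redF_mul (P₃.O.pow_mem h.f₁_mem₃ m) (P₃.inv_mem_of_redF_ne_zero h.E₁_red₃),
      P₃.redF_pow h.f₁_mem₃, P₃.redF_inv h.E₁_red₃]
  have hne : P₃.redF (f₁ ^ m * E₁⁻¹) ≠ 0 := by
    rw [hred]
    exact mul_ne_zero (pow_ne_zero m hf) (inv_ne_zero h.E₁_red₃)
  have hord : x₃.ord (P₃.redF (f₁ ^ m * E₁⁻¹)) = 0 := by
    rw [hred, ord_pow_mul_inv hf h.E₁_red₃, h.ord_f₁, h.ord_E₁]
    ring
  obtain ⟨α, hα0, hα⟩ := exists_hasValueAt_ne_zero h.deg₃ hne hord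
  obtain ⟨h1, h2⟩ := h.glue.of_value₃ h.R₁_mem h.R₁_mem₁ h.R₁_mem₂ h.R₁_mem₃ hα
  exact ⟨α, hα0, h1, h2, hα⟩

/-- `R₃ = f₃ ^ m / E₃` -/
theorem R₃_eq : f₃ ^ m * E₃⁻¹ = (f₃ * π⁻¹) ^ m * (E₃ * (π ^ m)⁻¹)⁻¹ := by
  have hπ : (π ^ m)⁻¹ * π ^ m = 1 := inv_mul_cancel₀ h.πm_ne
  rw [mul_pow, mul_inv, inv_inv, inv_pow]
  calc f₃ ^ m * E₃⁻¹ = f₃ ^ m * E₃⁻¹ * ((π ^ m)⁻¹ * π ^ m) := by rw [hπ, mul_one]
    _ = _ := by ring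

theorem R₃_mem : f₃ ^ m * E₃⁻¹ ∈ S :=
  S.mul_mem (S.pow_mem h.f₃_mem m) h.E₃_inv_mem

theorem R₃_mem₁ : f₃ ^ m * E₃⁻¹ ∈ P₁.O :=
  P₁.O.mul_mem _ _ (P₁.O.pow_mem h.f₃_mem₁ m) (P₁.inv_mem_of_redF_ne_zero h.E₃_red₁)

theorem R₃_mem₂ : f₃ ^ m * E₃⁻¹ ∈ P₂.O :=
  P₂.O.mul_mem _ _ (P₂.O.pow_mem h.f₃_mem₂ m) (P₂.inv_mem_of_redF_ne_zero h.E₃_red₂)

theorem R₃_mem₃ : f₃ ^ m * E₃⁻¹ ∈ P₃.O := by
  rw [h.R₃_eq]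
  exact P₃.O.mul_mem _ _ (P₃.O.pow_mem h.f₃_mem₃ m) (P₃.inv_mem_of_redF_ne_zero h.E₃_red₃)

/-- `R₃` has a nonzero value at the triple point (computed on the first component) -/
theorem exists_value_R₃ : ∃ α : k, α ≠ 0 ∧ HasValueAt x₁ (P₁.redF (f₃ ^ m * E₃⁻¹)) α ∧
    HasValueAt x₂ (P₂.redF (f₃ ^ m * E₃⁻¹)) α ∧ HasValueAt x₃ (P₃.redF (f₃ ^ m * E₃⁻¹)) α := by
  have hf : P₁.redF f₃ ≠ 0 := ne_zero_of_ord_ne_zero (Q := x₁) (by rw [h.ord_f₃]; norm_num)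
  have hred : P₁.redF (f₃ ^ m * E₃⁻¹) = P₁.redF f₃ ^ m * (P₁.redF E₃)⁻¹ := by
    rw [P₁.redF_mul (P₁.O.pow_mem h.f₃_mem₁ m) (P₁.inv_mem_of_redF_ne_zero h.E₃_red₁),
      P₁.redF_pow h.f₃_mem₁, P₁.redF_inv h.E₃_red₁]
  have hne : P₁.redF (f₃ ^ m * E₃⁻¹) ≠ 0 := by
    rw [hred]
    exact mul_ne_zero (pow_ne_zero m hf) (inv_ne_zero h.E₃_red₁)
  have hord : x₁.ord (P₁.redF (f₃ ^ m * E₃⁻¹)) = 0 := by
    rw [hred, ord_pow_mul_inv hf h.E₃_red₁, h.ord_f₃, h.ord_E₃]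
    ring
  obtain ⟨α, hα0, hα⟩ := exists_hasValueAt_ne_zero h.deg₁ hne hord
  obtain ⟨h2, h3⟩ := h.glue.of_value₁ h.R₃_mem h.R₃_mem₁ h.R₃_mem₂ h.R₃_mem₃ hα
  exact ⟨α, hα0, hα, h2, h3⟩

/-- `R₂ = ϖ ^ (e m) / E₂` -/
theorem R₂_eq : ϖ ^ (e * m) * E₂⁻¹ = (ϖ ^ e * π⁻¹) ^ m * (π ^ m * E₂⁻¹) := by
  have hπ : (π ^ m)⁻¹ * π ^ m = 1 := inv_mul_cancel₀ h.πm_ne
  rw [mul_pow, inv_pow, ← pow_mul]
  calc ϖ ^ (e * m) * E₂⁻¹ = ϖ ^ (e * m) * E₂⁻¹ * ((π ^ m)⁻¹ * π ^ m) := by rw [hπ, mul_one]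
    _ = _ := by ring

theorem R₂_mem : ϖ ^ (e * m) * E₂⁻¹ ∈ S :=
  S.mul_mem (S.pow_mem h.ϖ_mem _) h.E₂_inv_mem

theorem R₂_mem₁ : ϖ ^ (e * m) * E₂⁻¹ ∈ P₁.O :=
  P₁.O.mul_mem _ _ (P₁.O.pow_mem h.ϖ_mem₁ _) (P₁.inv_mem_of_redF_ne_zero h.E₂_red₁)

theorem R₂_mem₂ : ϖ ^ (e * m) * E₂⁻¹ ∈ P₂.O := by
  rw [h.R₂_eq]
  exact P₂.O.mul_mem _ _ (P₂.O.pow_mem h.ϖ_mem₂ m) (P₂.mem_of_redF_ne_zero h.E₂_red₂)

theorem R₂_mem₃ : ϖ ^ (e * m) * E₂⁻¹ ∈ P₃.O :=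
  P₃.O.mul_mem _ _ (P₃.O.pow_mem h.ϖ_mem₃ _) (P₃.inv_mem_of_redF_ne_zero h.E₂_red₃)

/-- `R₂` has a nonzero value at the triple point (computed on the first component) -/
theorem exists_value_R₂ : ∃ α : k, α ≠ 0 ∧ HasValueAt x₁ (P₁.redF (ϖ ^ (e * m) * E₂⁻¹)) α ∧
    HasValueAt x₂ (P₂.redF (ϖ ^ (e * m) * E₂⁻¹)) α ∧
      HasValueAt x₃ (P₃.redF (ϖ ^ (e * m) * E₂⁻¹)) α := by
  have hf : P₁.redF ϖ ≠ 0 := ne_zero_of_ord_ne_zero (Q := x₁) (by rw [h.ord_ϖ]; norm_num)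
  have hred : P₁.redF (ϖ ^ (e * m) * E₂⁻¹) = P₁.redF ϖ ^ (e * m) * (P₁.redF E₂)⁻¹ := by
    rw [P₁.redF_mul (P₁.O.pow_mem h.ϖ_mem₁ _) (P₁.inv_mem_of_redF_ne_zero h.E₂_red₁),
      P₁.redF_pow h.ϖ_mem₁, P₁.redF_inv h.E₂_red₁]
  have hne : P₁.redF (ϖ ^ (e * m) * E₂⁻¹) ≠ 0 := by
    rw [hred]
    exact mul_ne_zero (pow_ne_zero _ hf) (inv_ne_zero h.E₂_red₁)
  have hord : x₁.ord (P₁.redF (ϖ ^ (e * m) * E₂⁻¹)) = 0 := by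
    rw [hred, ord_pow_mul_inv hf h.E₂_red₁, h.ord_ϖ, h.ord_E₂]
    push_cast
    ring
  obtain ⟨α, hα0, hα⟩ := exists_hasValueAt_ne_zero h.deg₁ hne hord
  obtain ⟨h2, h3⟩ := h.glue.of_value₁ h.R₂_mem h.R₂_mem₁ h.R₂_mem₂ h.R₂_mem₃ hα
  exact ⟨α, hα0, hα, h2, h3⟩

/-! ### the conclusions -/

/-- `v₁(f₁) = v₁(π)`: `f₁ / π` is a unit of `O₁` -/
theorem f₁_unit : P₁.redF (f₁ * π⁻¹) ≠ 0 := by
  obtain ⟨α, hα0, h1, -, -⟩ := h.exists_value_R₁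
  have hne := h1.ne_zero hα0
  rw [h.R₁_eq, P₁.redF_mul (P₁.O.pow_mem h.f₁_mem₁ m) (P₁.inv_mem_of_redF_ne_zero h.E₁_red₁),
    P₁.redF_pow h.f₁_mem₁] at hne
  intro h0
  rw [h0, zero_pow h.m_pos.ne', zero_mul] at hne
  exact hne rfl

/-- `v₃(f₃) = v₃(π)`: `f₃ / π` is a unit of `O₃` -/
theorem f₃_unit : P₃.redF (f₃ * π⁻¹) ≠ 0 := by
  obtain ⟨α, hα0, -, -, h3⟩ := h.exists_value_R₃
  have hne := h3.ne_zero hα0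
  rw [h.R₃_eq, P₃.redF_mul (P₃.O.pow_mem h.f₃_mem₃ m) (P₃.inv_mem_of_redF_ne_zero h.E₃_red₃),
    P₃.redF_pow h.f₃_mem₃] at hne
  intro h0
  rw [h0, zero_pow h.m_pos.ne', zero_mul] at hne
  exact hne rfl

/-- `e · v₂(ϖ) = v₂(π)`: `ϖ ^ e / π` is a unit of `O₂`, i.e. `ϖ` is a uniformizer of `O₂` -/
theorem ϖ_unit : P₂.redF (ϖ ^ e * π⁻¹) ≠ 0 := by
  obtain ⟨α, hα0, -, h2, -⟩ := h.exists_value_R₂
  have hne := h2.ne_zero hα0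
  rw [h.R₂_eq, P₂.redF_mul (P₂.O.pow_mem h.ϖ_mem₂ m) (P₂.mem_of_redF_ne_zero h.E₂_red₂),
    P₂.redF_pow h.ϖ_mem₂] at hne
  intro h0
  rw [h0, zero_pow h.m_pos.ne', zero_mul] at hne
  exact hne rfl

/-- the unit `U = f₁ f₃ ϖ ^ e / π` -/
theorem U_pow : (f₁ * f₃ * ϖ ^ e * π⁻¹) ^ m =
    (f₁ ^ m * E₁⁻¹) * (ϖ ^ (e * m) * E₂⁻¹) * (f₃ ^ m * E₃⁻¹) := by
  have h1 := h.E₁_ne
  have h2 := h.E₂_ne
  have h3 := h.E₃_ne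
  have hπ := h.π_ne
  have hE := h.E_mul
  have key : E₁⁻¹ * E₂⁻¹ * E₃⁻¹ = (π⁻¹) ^ m := by
    rw [← mul_inv, ← mul_inv, hE, inv_pow]
  calc (f₁ * f₃ * ϖ ^ e * π⁻¹) ^ m = f₁ ^ m * f₃ ^ m * ϖ ^ (e * m) * (π⁻¹) ^ m := by
        rw [mul_pow, mul_pow, mul_pow, ← pow_mul]
    _ = f₁ ^ m * f₃ ^ m * ϖ ^ (e * m) * (E₁⁻¹ * E₂⁻¹ * E₃⁻¹) := by rw [key]
    _ = _ := by ring

theorem U_mem : f₁ * f₃ * ϖ ^ e * π⁻¹ ∈ S :=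
  S.mul_mem (S.mul_mem (S.mul_mem h.f₁_mem h.f₃_mem) (S.pow_mem h.ϖ_mem e)) h.π_inv_mem

theorem U_mem₁ : f₁ * f₃ * ϖ ^ e * π⁻¹ ∈ P₁.O := by
  have : f₁ * f₃ * ϖ ^ e * π⁻¹ = (f₁ * π⁻¹) * f₃ * ϖ ^ e := by ring
  rw [this]
  exact P₁.O.mul_mem _ _ (P₁.O.mul_mem _ _ h.f₁_mem₁ h.f₃_mem₁) (P₁.O.pow_mem h.ϖ_mem₁ e)

theorem U_mem₂ : f₁ * f₃ * ϖ ^ e * π⁻¹ ∈ P₂.O := by
  have : f₁ * f₃ * ϖ ^ e * π⁻¹ = f₁ * f₃ * (ϖ ^ e * π⁻¹) := by ring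
  rw [this]
  exact P₂.O.mul_mem _ _ (P₂.O.mul_mem _ _ h.f₁_mem₂ h.f₃_mem₂) h.ϖ_mem₂

theorem U_mem₃ : f₁ * f₃ * ϖ ^ e * π⁻¹ ∈ P₃.O := by
  have : f₁ * f₃ * ϖ ^ e * π⁻¹ = f₁ * (f₃ * π⁻¹) * ϖ ^ e := by ring
  rw [this]
  exact P₃.O.mul_mem _ _ (P₃.O.mul_mem _ _ h.f₁_mem₃ h.f₃_mem₃) (P₃.O.pow_mem h.ϖ_mem₃ e)

/-- **(REG)**: `U = f₁ f₃ ϖ ^ e / π` has a NONZERO value at the triple point (the same on the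
three components): `π = unit · f₁ · ϖ ^ e · f₃` locally at the triple point. -/
theorem main : ∃ α : k, α ≠ 0 ∧ HasValueAt x₁ (P₁.redF (f₁ * f₃ * ϖ ^ e * π⁻¹)) α ∧
    HasValueAt x₂ (P₂.redF (f₁ * f₃ * ϖ ^ e * π⁻¹)) α ∧
      HasValueAt x₃ (P₃.redF (f₁ * f₃ * ϖ ^ e * π⁻¹)) α := by
  obtain ⟨β, hβ1, hβ2, hβ3⟩ := h.glue _ h.U_mem h.U_mem₁ h.U_mem₂ h.U_mem₃
  refine ⟨β, ?_, hβ1, hβ2, hβ3⟩
  obtain ⟨α₁, hα₁, -, h12, -⟩ := h.exists_value_R₁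
  obtain ⟨α₂, hα₂, -, h22, -⟩ := h.exists_value_R₂
  obtain ⟨α₃, hα₃, -, h32, -⟩ := h.exists_value_R₃
  -- the value of `U ^ m` on the middle component, computed in two ways
  have hpow : HasValueAt x₂ (P₂.redF ((f₁ * f₃ * ϖ ^ e * π⁻¹) ^ m)) (β ^ m) := by
    rw [P₂.redF_pow h.U_mem₂]
    exact hβ2.pow m
  have hprod : HasValueAt x₂ (P₂.redF ((f₁ * f₃ * ϖ ^ e * π⁻¹) ^ m)) (α₁ * α₂ * α₃) := by
    rw [h.U_pow, P₂.redF_mul (P₂.O.mul_mem _ _ h.R₁_mem₂ h.R₂_mem₂) h.R₃_mem₂,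
      P₂.redF_mul h.R₁_mem₂ h.R₂_mem₂]
    exact (h12.mul h22).mul h32
  have heq : β ^ m = α₁ * α₂ * α₃ := hpow.unique hprod
  rintro rfl
  rw [zero_pow h.m_pos.ne'] at heq
  exact mul_ne_zero (mul_ne_zero hα₁ hα₂) hα₃ heq.symm

/-- the three reductions of `U` are nonzero: `U` is a tri-unit -/
theorem U_unit : P₁.redF (f₁ * f₃ * ϖ ^ e * π⁻¹) ≠ 0 ∧ P₂.redF (f₁ * f₃ * ϖ ^ e * π⁻¹) ≠ 0 ∧
    P₃.redF (f₁ * f₃ * ϖ ^ e * π⁻¹) ≠ 0 := by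
  obtain ⟨α, hα, h1, h2, h3⟩ := h.main
  exact ⟨h1.ne_zero hα, h2.ne_zero hα, h3.ne_zero hα⟩

end RegData

end Fermat.Agent.S36lib.Reg
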