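/-
S36lib / Reg / Thick  (helper8)  --  brick B4 (REG): from `RegData` to the fields of `ThickCtx`

The middle valuation `v_b` of the modular thick datum is constructed with SOME uniformizer `ϖ₀`
(Eisenstein localisation), while (REG) needs the specific local equation `ϖ = τ(q²z) - τ(z)`.

* `ramWithUnif V ϖ h0 hv` : the ramified Gauss datum `V` with the uniformizer replaced by any `ϖ`
  with `v(ϖ) = v(V.unif)`;
* `thickWithUnif D ϖ h0 hv` : the thick datum with the new uniformizer (`O`, `red₂`, `V₁`, `V₃`, charts,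
  triple points unchanged);
* `valuation_eq_of_regData` : `RegData` at ONE triple point + `ϖ₀ ^ e = π · unit`
  `⟹ v₂(ϖ) = v₂(ϖ₀)`;
* for `D' = thickWithUnif D ϖ …` and `RegData` (places `pl₁ D = ofGauss D.V₁`, `pl₂ D = ofRamGauss D.V₂`,
  `pl₃ D = ofGauss D.V₃`) at every triple point:  **`unif_pow_of_regData`**, **`unif_mem₁_of_regData`**,
  **`unif_inv_mem₁_of_regData`**, **`unif_mem₃_of_regData`**, **`unif_inv_mem₃_of_regData`**,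
  **`reg_of_regData`** = the fields `unif_pow`, `unif_mem₁/₃`, `unif_inv_mem₁/₃`, `reg` of
  `ThickCtx D'` verbatim.
-/
import Mathlib
import Fermat.Agent.S36lib.Reg.Abstract
import Fermat.Agent.S36lib.Norm.ThickBridge

set_option autoImplicit false
set_option linter.unusedSectionVars false

noncomputable section

namespace Fermat.Agent.S36lib.Reg

open AlgebraicCurve
open Fermat.Agent.LSb (HasValueAt)
open Fermat.Agent.S36lib.Thick Fermat.Agent.S36lib.Norm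

variable {K : Type*} [Field K] {R : ValuationSubring K}
variable {F : Type*} [Field F] [Algebra K F]

/-! ### units of a valuation ring from the valuation -/

/-- an element of valuation `1` as a unit of the valuation ring -/
def unitOfVal (O : ValuationSubring F) {x : F} (h : O.valuation x = 1) : Oˣ where
  val := ⟨x, (O.valuation_le_one_iff x).1 h.le⟩
  inv := ⟨x⁻¹, (O.valuation_le_one_iff _).1 (by rw [map_inv₀, h, inv_one])⟩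
  val_inv := by
    have hx0 : x ≠ 0 := by
      rintro rfl
      rw [map_zero] at h
      exact zero_ne_one h
    ext
    simp [mul_inv_cancel₀ hx0]
  inv_val := by
    have hx0 : x ≠ 0 := by
      rintro rfl
      rw [map_zero] at h
      exact zero_ne_one h
    ext
    simp [inv_mul_cancel₀ hx0]

@[simp] theorem coe_unitOfVal (O : ValuationSubring F) {x : F} (h : O.valuation x = 1) :
    (((unitOfVal O h : Oˣ) : O) : F) = x := rfl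

/-! ### change of the uniformizer -/

section WithUnif

variable {Fk : Type*} [Field Fk] [Algebra (IsLocalRing.ResidueField R) Fk]

theorem valuation_div_eq_one (V : RamGaussDatum R F Fk) {ϖ : F} (h0 : V.unif ≠ 0)
    (hv : V.O.valuation ϖ = V.O.valuation V.unif) : V.O.valuation (ϖ * V.unif⁻¹) = 1 := by
  rw [map_mul, map_inv₀, hv]
  exact mul_inv_cancel₀ ((Valuation.ne_zero_iff _).2 h0)

/-- the ramified Gauss datum with the uniformizer replaced by `ϖ`, `v(ϖ) = v(V.unif)` -/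
def ramWithUnif (V : RamGaussDatum R F Fk) (ϖ : F) (h0 : V.unif ≠ 0)
    (hv : V.O.valuation ϖ = V.O.valuation V.unif) : RamGaussDatum R F Fk where
  O := V.O
  algebraMap_mem_iff := V.algebraMap_mem_iff
  red := V.red
  red_surjective := V.red_surjective
  red_algebraMap := V.red_algebraMap
  unif := ϖ
  unif_mem := (V.O.valuation_le_one_iff ϖ).1 (hv.le.trans (valuation_unif_lt_one V).le)
  red_unif := by
    have hlt : V.O.valuation ϖ < 1 := hv ▸ valuation_unif_lt_one V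
    have hmem : ϖ ∈ V.O := (V.O.valuation_le_one_iff ϖ).1 hlt.le
    have := (ofRamGauss V).redF_eq_zero_of_lt (x := ϖ) hlt
    rwa [(ofRamGauss V).redF_of_mem hmem] at this
  exists_zpow_mul_isUnit := by
    intro f hf
    obtain ⟨j, u, hu⟩ := V.exists_zpow_mul_isUnit f hf
    have hϖ0 : ϖ ≠ 0 := by
      rintro rfl
      rw [map_zero] at hv
      exact (Valuation.ne_zero_iff _).2 h0 hv.symm
    have hval : V.O.valuation (f * (ϖ ^ j)⁻¹) = 1 := by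
      rw [hu, map_mul, map_mul, map_inv₀, map_zpow₀, map_zpow₀, hv, V.O.valuation_unit u, mul_one]
      exact mul_inv_cancel₀ (zpow_ne_zero _ ((Valuation.ne_zero_iff _).2 h0))
    refine ⟨j, unitOfVal V.O hval, ?_⟩
    rw [coe_unitOfVal, mul_comm f, ← mul_assoc, mul_inv_cancel₀ (zpow_ne_zero _ hϖ0), one_mul]

@[simp] theorem ramWithUnif_O (V : RamGaussDatum R F Fk) (ϖ : F) (h0 : V.unif ≠ 0)
    (hv : V.O.valuation ϖ = V.O.valuation V.unif) : (ramWithUnif V ϖ h0 hv).O = V.O := rfl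

@[simp] theorem ramWithUnif_unif (V : RamGaussDatum R F Fk) (ϖ : F) (h0 : V.unif ≠ 0)
    (hv : V.O.valuation ϖ = V.O.valuation V.unif) : (ramWithUnif V ϖ h0 hv).unif = ϖ := rfl

theorem ramWithUnif_red (V : RamGaussDatum R F Fk) (ϖ : F) (h0 : V.unif ≠ 0)
    (hv : V.O.valuation ϖ = V.O.valuation V.unif) : (ramWithUnif V ϖ h0 hv).red = V.red := rfl

end WithUnif

variable {F₁ F₂ F₃ : Type*} [Field F₁] [Field F₂] [Field F₃]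
variable [Algebra (IsLocalRing.ResidueField R) F₁] [Algebra (IsLocalRing.ResidueField R) F₂]
variable [Algebra (IsLocalRing.ResidueField R) F₃]

local notation "kR" => IsLocalRing.ResidueField R

/-- the thick datum with the uniformizer of the middle component replaced by `ϖ` -/
def thickWithUnif (D : ThickDatum R F F₁ F₂ F₃) (ϖ : F)
    (h0 : D.V₂.unif ≠ 0) (hv : D.V₂.O.valuation ϖ = D.V₂.O.valuation D.V₂.unif) :
    ThickDatum R F F₁ F₂ F₃ :=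
  { D with V₂ := ramWithUnif D.V₂ ϖ h0 hv }

section Datum

variable (D : ThickDatum R F F₁ F₂ F₃) (ϖ : F) (h0 : D.V₂.unif ≠ 0)
  (hv : D.V₂.O.valuation ϖ = D.V₂.O.valuation D.V₂.unif)

@[simp] theorem withUnif_ϖ : (thickWithUnif D ϖ h0 hv).ϖ = ϖ := rfl
@[simp] theorem withUnif_π : (thickWithUnif D ϖ h0 hv).π = D.π := rfl
@[simp] theorem withUnif_e : (thickWithUnif D ϖ h0 hv).e = D.e := rfl
@[simp] theorem withUnif_V₁ : (thickWithUnif D ϖ h0 hv).V₁ = D.V₁ := rfl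
@[simp] theorem withUnif_V₃ : (thickWithUnif D ϖ h0 hv).V₃ = D.V₃ := rfl
@[simp] theorem withUnif_V₂_O : (thickWithUnif D ϖ h0 hv).V₂.O = D.V₂.O := rfl
@[simp] theorem withUnif_𝓛 : (thickWithUnif D ϖ h0 hv).𝓛 = D.𝓛 := rfl
@[simp] theorem withUnif_s : (thickWithUnif D ϖ h0 hv).s = D.s := rfl
@[simp] theorem withUnif_x₁ : (thickWithUnif D ϖ h0 hv).x₁ = D.x₁ := rfl
@[simp] theorem withUnif_x₂ : (thickWithUnif D ϖ h0 hv).x₂ = D.x₂ := rfl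
@[simp] theorem withUnif_x₃ : (thickWithUnif D ϖ h0 hv).x₃ = D.x₃ := rfl

theorem withUnif_red₂ (y : F) : (thickWithUnif D ϖ h0 hv).red₂ y = D.red₂ y := rfl

theorem withUnif_O' : (thickWithUnif D ϖ h0 hv).O = D.O := rfl

end Datum

/-! ### the three places of a thick datum -/

/-- the first place of a thick datum -/
abbrev pl₁ (D : ThickDatum R F F₁ F₂ F₃) : Norm.Place F F₁ := ofGauss (A := R) D.V₁

/-- the middle place of a thick datum -/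
abbrev pl₂ (D : ThickDatum R F F₁ F₂ F₃) : Norm.Place F F₂ := ofRamGauss D.V₂

/-- the third place of a thick datum -/
abbrev pl₃ (D : ThickDatum R F F₁ F₂ F₃) : Norm.Place F F₃ := ofGauss (A := R) D.V₃

theorem pl₁_redF (D : ThickDatum R F F₁ F₂ F₃) (y : F) : (pl₁ D).redF y = D.V₁.redF y := rfl

theorem pl₂_redF (D : ThickDatum R F F₁ F₂ F₃) (y : F) : (pl₂ D).redF y = D.red₂ y := rfl

theorem pl₃_redF (D : ThickDatum R F F₁ F₂ F₃) (y : F) : (pl₃ D).redF y = D.V₃.redF y := rfl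

/-! ### from `RegData` to the fields of `ThickCtx` -/

section Reg

variable {D : ThickDatum R F F₁ F₂ F₃} {S : Subring F} {m : ℕ} {E₁ E₂ E₃ f₁ f₃ ϖ : F}
variable {x₁ : AlgebraicCurve.Place (IsLocalRing.ResidueField R) F₁}
  {x₂ : AlgebraicCurve.Place (IsLocalRing.ResidueField R) F₂}
  {x₃ : AlgebraicCurve.Place (IsLocalRing.ResidueField R) F₃}

/-- `RegData` at one triple point and `ϖ₀ ^ e = π · unit` give `v₂(ϖ) = v₂(ϖ₀)` -/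
theorem valuation_eq_of_regData
    (h : RegData (k := IsLocalRing.ResidueField R) (pl₁ D) (pl₂ D) (pl₃ D) x₁ x₂ x₃ S
      (algebraMap K F D.π) D.e m E₁ E₂ E₃ f₁ f₃ ϖ) (he : 0 < D.e)
    (hpow : ∃ u : D.V₂.Oˣ, D.V₂.unif ^ D.e = algebraMap K F D.π * ((u : D.V₂.O) : F)) :
    D.V₂.O.valuation ϖ = D.V₂.O.valuation D.V₂.unif := by
  obtain ⟨u, hu⟩ := hpow
  have h1 : D.V₂.O.valuation (ϖ ^ D.e * (algebraMap K F D.π)⁻¹) = 1 :=
    (pl₂ D).valuation_eq_one_of_redF_ne_zero h.ϖ_unit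
  have h2 := congrArg D.V₂.O.valuation hu
  rw [map_pow, map_mul, D.V₂.O.valuation_unit u, mul_one] at h2
  have hπ0 : D.V₂.O.valuation (algebraMap K F D.π) ≠ 0 := (Valuation.ne_zero_iff _).2 h.π_ne
  rw [map_mul, map_inv₀, map_pow, mul_inv_eq_one₀ hπ0, ← h2] at h1
  exact (pow_left_inj₀ zero_le zero_le he.ne').1 h1

variable (h0 : D.V₂.unif ≠ 0) (hv : D.V₂.O.valuation ϖ = D.V₂.O.valuation D.V₂.unif)

/-- the field `unif_pow` of `ThickCtx (thickWithUnif D ϖ …)` -/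
theorem unif_pow_of_regData
    (h : RegData (k := IsLocalRing.ResidueField R) (pl₁ D) (pl₂ D) (pl₃ D) x₁ x₂ x₃ S
      (algebraMap K F D.π) D.e m E₁ E₂ E₃ f₁ f₃ ϖ) :
    ∃ u : (thickWithUnif D ϖ h0 hv).V₂.Oˣ, (thickWithUnif D ϖ h0 hv).ϖ ^ (thickWithUnif D ϖ h0 hv).e =
      algebraMap K F (thickWithUnif D ϖ h0 hv).π * ((u : (thickWithUnif D ϖ h0 hv).V₂.O) : F) := by
  have h1 : D.V₂.O.valuation (ϖ ^ D.e * (algebraMap K F D.π)⁻¹) = 1 :=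
    (pl₂ D).valuation_eq_one_of_redF_ne_zero h.ϖ_unit
  refine ⟨unitOfVal D.V₂.O h1, ?_⟩
  show ϖ ^ D.e = algebraMap K F D.π * (ϖ ^ D.e * (algebraMap K F D.π)⁻¹)
  rw [mul_comm (ϖ ^ D.e), ← mul_assoc, mul_inv_cancel₀ h.π_ne, one_mul]

/-- `red₁ ϖ ≠ 0` -/
theorem redF₁_ϖ_ne_zero_of_regData
    (h : RegData (k := IsLocalRing.ResidueField R) (pl₁ D) (pl₂ D) (pl₃ D) x₁ x₂ x₃ S
      (algebraMap K F D.π) D.e m E₁ E₂ E₃ f₁ f₃ ϖ) : (pl₁ D).redF ϖ ≠ 0 :=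
  ne_zero_of_ord_ne_zero (Q := x₁) (by rw [h.ord_ϖ]; norm_num)

/-- `red₃ ϖ ≠ 0` (from the tri-unit `U = f₁ f₃ ϖ^e / π`) -/
theorem redF₃_ϖ_ne_zero_of_regData
    (h : RegData (k := IsLocalRing.ResidueField R) (pl₁ D) (pl₂ D) (pl₃ D) x₁ x₂ x₃ S
      (algebraMap K F D.π) D.e m E₁ E₂ E₃ f₁ f₃ ϖ) (he : 0 < D.e) :
    (pl₃ D).redF ϖ ≠ 0 := by
  intro hz
  have hU := h.U_unit.2.2
  have e1 : f₁ * f₃ * ϖ ^ D.e * (algebraMap K F D.π)⁻¹ =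
      f₁ * (f₃ * (algebraMap K F D.π)⁻¹) * ϖ ^ D.e := by ring
  rw [e1, (pl₃ D).redF_mul
    ((pl₃ D).O.mul_mem _ _ h.f₁_mem₃ h.f₃_mem₃) ((pl₃ D).O.pow_mem h.ϖ_mem₃ _),
    (pl₃ D).redF_pow h.ϖ_mem₃, hz, zero_pow he.ne', mul_zero] at hU
  exact hU rfl

theorem unif_mem₁_of_regData
    (h : RegData (k := IsLocalRing.ResidueField R) (pl₁ D) (pl₂ D) (pl₃ D) x₁ x₂ x₃ S
      (algebraMap K F D.π) D.e m E₁ E₂ E₃ f₁ f₃ ϖ) :
    (thickWithUnif D ϖ h0 hv).ϖ ∈ (thickWithUnif D ϖ h0 hv).V₁.O := h.ϖ_mem₁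

theorem unif_inv_mem₁_of_regData
    (h : RegData (k := IsLocalRing.ResidueField R) (pl₁ D) (pl₂ D) (pl₃ D) x₁ x₂ x₃ S
      (algebraMap K F D.π) D.e m E₁ E₂ E₃ f₁ f₃ ϖ) :
    (thickWithUnif D ϖ h0 hv).ϖ⁻¹ ∈ (thickWithUnif D ϖ h0 hv).V₁.O :=
  (pl₁ D).inv_mem_of_redF_ne_zero (redF₁_ϖ_ne_zero_of_regData h)

theorem unif_mem₃_of_regData
    (h : RegData (k := IsLocalRing.ResidueField R) (pl₁ D) (pl₂ D) (pl₃ D) x₁ x₂ x₃ S
      (algebraMap K F D.π) D.e m E₁ E₂ E₃ f₁ f₃ ϖ) :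
    (thickWithUnif D ϖ h0 hv).ϖ ∈ (thickWithUnif D ϖ h0 hv).V₃.O := h.ϖ_mem₃

theorem unif_inv_mem₃_of_regData
    (h : RegData (k := IsLocalRing.ResidueField R) (pl₁ D) (pl₂ D) (pl₃ D) x₁ x₂ x₃ S
      (algebraMap K F D.π) D.e m E₁ E₂ E₃ f₁ f₃ ϖ) (he : 0 < D.e) :
    (thickWithUnif D ϖ h0 hv).ϖ⁻¹ ∈ (thickWithUnif D ϖ h0 hv).V₃.O :=
  (pl₃ D).inv_mem_of_redF_ne_zero (redF₃_ϖ_ne_zero_of_regData h he)

/-- **the field `reg` of `ThickCtx (thickWithUnif D ϖ …)`** from `RegData` at every triple point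
(`f₁`, `f₃` may depend on the triple point), `S ⊆ 𝓛 a b` for the two local equations. -/
theorem reg_of_regData {a b : ℕ} {f₁ f₃ : Fin D.s → F} (hπ : D.π ∈ R)
    (h : ∀ c, RegData (k := IsLocalRing.ResidueField R) (pl₁ D) (pl₂ D) (pl₃ D) (D.x₁ c) (D.x₂ c)
      (D.x₃ c) S (algebraMap K F D.π) D.e m E₁ E₂ E₃ (f₁ c) (f₃ c) ϖ)
    (hf₁ : ∀ c, f₁ c ∈ D.𝓛 a b) (hf₃ : ∀ c, f₃ c ∈ D.𝓛 a b) :
    ∃ a b : ℕ, ∀ c, ∃ g₁ g₃ : F, g₁ ∈ (thickWithUnif D ϖ h0 hv).𝓛 a b ∧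
      g₃ ∈ (thickWithUnif D ϖ h0 hv).𝓛 a b ∧ g₁ ∈ (thickWithUnif D ϖ h0 hv).O ∧
      g₃ ∈ (thickWithUnif D ϖ h0 hv).O ∧
      g₁ * (algebraMap K F (thickWithUnif D ϖ h0 hv).π)⁻¹ ∈ (thickWithUnif D ϖ h0 hv).V₁.O ∧
      g₃ * (algebraMap K F (thickWithUnif D ϖ h0 hv).π)⁻¹ ∈ (thickWithUnif D ϖ h0 hv).V₃.O ∧
      ∃ α : kR, α ≠ 0 ∧ HasValueAt ((thickWithUnif D ϖ h0 hv).x₂ c)
        ((thickWithUnif D ϖ h0 hv).red₂ (g₁ * g₃ * (thickWithUnif D ϖ h0 hv).ϖ ^ (thickWithUnif D ϖ h0 hv).e *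
          (algebraMap K F (thickWithUnif D ϖ h0 hv).π)⁻¹)) α := by
  have hπ₁ : algebraMap K F D.π ∈ D.V₁.O := D.V₁.algebraMap_mem ⟨D.π, hπ⟩
  have hπ₃ : algebraMap K F D.π ∈ D.V₃.O := D.V₃.algebraMap_mem ⟨D.π, hπ⟩
  refine ⟨a, b, fun c => ⟨f₁ c, f₃ c, hf₁ c, hf₃ c, ?_, ?_, (h c).f₁_mem₁, (h c).f₃_mem₃, ?_⟩⟩
  · refine ThickDatum.mem_O.2 ⟨?_, (h c).f₁_mem₂, (h c).f₁_mem₃⟩
    have := D.V₁.O.mul_mem _ _ (h c).f₁_mem₁ hπ₁
    rwa [mul_assoc, inv_mul_cancel₀ (h c).π_ne, mul_one] at this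
  · refine ThickDatum.mem_O.2 ⟨(h c).f₃_mem₁, (h c).f₃_mem₂, ?_⟩
    have := D.V₃.O.mul_mem _ _ (h c).f₃_mem₃ hπ₃
    rwa [mul_assoc, inv_mul_cancel₀ (h c).π_ne, mul_one] at this
  · obtain ⟨α, hα, -, h2, -⟩ := (h c).main
    exact ⟨α, hα, h2⟩

end Reg

/-! ### packaging: everything of `ThickCtx` except the uniformizer fields -/

open Module in
/-- All the fields of `ThickCtx D g g₁ g₂ g₃` EXCEPT those which mention the uniformizer of the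
middle component (`unif_pow`, `unif_mem₁/₃`, `unif_inv_mem₁/₃`, `unif_mem_chart`, `reg`). -/
structure ThickBase (D : ThickDatum R F F₁ F₂ F₃) (g g₁ g₂ g₃ : ℕ) : Prop where
  hF₁ : S18lib.IsCurveOfGenus (IsLocalRing.ResidueField R) F₁ g₁
  hF₂ : S18lib.IsCurveOfGenus (IsLocalRing.ResidueField R) F₂ g₂
  hF₃ : S18lib.IsCurveOfGenus (IsLocalRing.ResidueField R) F₃ g₃
  π_mem : D.π ∈ R
  π_not_unit : D.π⁻¹ ∉ R
  exists_zpow_mul_unit : ∀ c : K, c ≠ 0 → ∃ m : ℤ, c * D.π ^ (-m) ∈ R ∧ (c * D.π ^ (-m))⁻¹ ∈ R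
  e_pos : 0 < D.e
  hD : D.HasLatticeBases
  finiteDimensional : ∀ a b, FiniteDimensional K (D.𝓛 a b)
  mono : ∀ {a b a' b' : ℕ}, a ≤ a' → b ≤ b' → D.𝓛 a b ≤ D.𝓛 a' b'
  inter : ∀ a b a' b' : ℕ, D.𝓛 a b ⊓ D.𝓛 a' b' ≤ D.𝓛 (min a a') (min b b')
  mul_mem : ∀ {a b a' b' : ℕ} {f f' : F}, f ∈ D.𝓛 a b → f' ∈ D.𝓛 a' b' →
    f * f' ∈ D.𝓛 (a + a') (b + b')
  one_mem : (1 : F) ∈ D.𝓛 0 0
  riemann : ∀ a b : ℕ, (a : ℤ) * D.d₁ + b * D.d₂ + 1 - g ≤ (finrank K (D.𝓛 a b) : ℤ)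
  Q₁₁_nonneg : 0 ≤ D.Q₁₁
  Q₂₁_nonneg : 0 ≤ D.Q₂₁
  Q₁₂_nonneg : 0 ≤ D.Q₁₂
  Q₂₂_nonneg : 0 ≤ D.Q₂₂
  Q₁₃_nonneg : 0 ≤ D.Q₁₃
  Q₂₃_nonneg : 0 ≤ D.Q₂₃
  Q₁_disjoint : Disjoint D.Q₁₁.support D.Q₂₁.support
  Q₂_disjoint : Disjoint D.Q₁₂.support D.Q₂₂.support
  Q₃_disjoint : Disjoint D.Q₁₃.support D.Q₂₃.support
  deg_Q₁₁_pos : 0 < Divisor.degree D.Q₁₁
  deg_Q₂₁_pos : 0 < Divisor.degree D.Q₂₁
  deg_Q₁₂_pos : 0 < Divisor.degree D.Q₁₂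
  deg_Q₂₂_pos : 0 < Divisor.degree D.Q₂₂
  deg_Q₁₃_pos : 0 < Divisor.degree D.Q₁₃
  deg_Q₂₃_pos : 0 < Divisor.degree D.Q₂₃
  deg_Q₁_le : Divisor.degree D.Q₁₁ + D.e * Divisor.degree D.Q₁₂ + Divisor.degree D.Q₁₃ ≤ D.d₁
  deg_Q₂_le : Divisor.degree D.Q₂₁ + D.e * Divisor.degree D.Q₂₂ + Divisor.degree D.Q₂₃ ≤ D.d₂
  x₁_injective : Function.Injective D.x₁
  x₂_injective : Function.Injective D.x₂
  x₃_injective : Function.Injective D.x₃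
  x₁_not_mem : ∀ c, D.x₁ c ∉ D.Q₁₁.support ∧ D.x₁ c ∉ D.Q₂₁.support
  x₂_not_mem : ∀ c, D.x₂ c ∉ D.Q₁₂.support ∧ D.x₂ c ∉ D.Q₂₂.support
  x₃_not_mem : ∀ c, D.x₃ c ∉ D.Q₁₃.support ∧ D.x₃ c ∉ D.Q₂₃.support
  chart₁ : ∀ (a b : ℕ) (f : F), f ∈ D.𝓛 a b → f ∈ D.O →
    D.V₁.redF f ∈ riemannRochSpace (D.chartDiv₁ a b)
  chart₂ : ∀ (a b : ℕ) (f : F), f ∈ D.𝓛 a b → f ∈ D.O →
    D.red₂ f ∈ riemannRochSpace (D.chartDiv₂ a b)
  chart₃ : ∀ (a b : ℕ) (f : F), f ∈ D.𝓛 a b → f ∈ D.O →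
    D.V₃.redF f ∈ riemannRochSpace (D.chartDiv₃ a b)
  glue : ∀ (a b : ℕ) (f : F), f ∈ D.𝓛 a b → f ∈ D.O → ∀ c, ∃ α : IsLocalRing.ResidueField R,
    HasValueAt (D.x₁ c) (D.V₁.redF f) α ∧ HasValueAt (D.x₂ c) (D.red₂ f) α ∧
      HasValueAt (D.x₃ c) (D.V₃.redF f) α
  count : g + D.e + 1 ≤ g₁ + D.e * g₂ + g₃ + D.s * (D.e + 2)
  s_pos : 0 < D.s

/-- **Assembly**: the base fields for the datum `D` (middle component with ANY uniformizer, e.g.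
the Eisenstein one) + `RegData` at every triple point for `ϖ` + the chart memberships of `f₁`,
`f₃`, `ϖ` give the full `ThickCtx` of the datum with uniformizer `ϖ`. -/
theorem thickCtx_of_regData {D : ThickDatum R F F₁ F₂ F₃} {g g₁ g₂ g₃ : ℕ}
    (B : ThickBase D g g₁ g₂ g₃) {S : Subring F} {m : ℕ} {E₁ E₂ E₃ ϖ : F}
    (h0 : D.V₂.unif ≠ 0) (hv : D.V₂.O.valuation ϖ = D.V₂.O.valuation D.V₂.unif)
    {a b : ℕ} {f₁ f₃ : Fin D.s → F}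
    (h : ∀ c, RegData (k := IsLocalRing.ResidueField R) (pl₁ D) (pl₂ D) (pl₃ D) (D.x₁ c) (D.x₂ c)
      (D.x₃ c) S (algebraMap K F D.π) D.e m E₁ E₂ E₃ (f₁ c) (f₃ c) ϖ)
    (hf₁ : ∀ c, f₁ c ∈ D.𝓛 a b) (hf₃ : ∀ c, f₃ c ∈ D.𝓛 a b)
    (hchart : ∃ a b : ℕ, ϖ ∈ D.𝓛 a b) :
    ThickCtx (thickWithUnif D ϖ h0 hv) g g₁ g₂ g₃ :=
  { B with
    unif_pow := unif_pow_of_regData h0 hv (h ⟨0, B.s_pos⟩)
    unif_mem₁ := unif_mem₁_of_regData h0 hv (h ⟨0, B.s_pos⟩)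
    unif_inv_mem₁ := unif_inv_mem₁_of_regData h0 hv (h ⟨0, B.s_pos⟩)
    unif_mem₃ := unif_mem₃_of_regData h0 hv (h ⟨0, B.s_pos⟩)
    unif_inv_mem₃ := unif_inv_mem₃_of_regData h0 hv (h ⟨0, B.s_pos⟩) B.e_pos
    unif_mem_chart := hchart
    reg := reg_of_regData h0 hv B.π_mem h hf₁ hf₃ }

/-- the same, with `v₂(ϖ) = v₂(ϖ₀)` derived from `RegData` and `ϖ₀ ^ e = π · unit` -/
theorem exists_thickCtx_of_regData {D : ThickDatum R F F₁ F₂ F₃} {g g₁ g₂ g₃ : ℕ}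
    (B : ThickBase D g g₁ g₂ g₃) {S : Subring F} {m : ℕ} {E₁ E₂ E₃ ϖ : F}
    (h0 : D.V₂.unif ≠ 0)
    (hpow : ∃ u : D.V₂.Oˣ, D.V₂.unif ^ D.e = algebraMap K F D.π * ((u : D.V₂.O) : F))
    {a b : ℕ} {f₁ f₃ : Fin D.s → F}
    (h : ∀ c, RegData (k := IsLocalRing.ResidueField R) (pl₁ D) (pl₂ D) (pl₃ D) (D.x₁ c) (D.x₂ c)
      (D.x₃ c) S (algebraMap K F D.π) D.e m E₁ E₂ E₃ (f₁ c) (f₃ c) ϖ)
    (hf₁ : ∀ c, f₁ c ∈ D.𝓛 a b) (hf₃ : ∀ c, f₃ c ∈ D.𝓛 a b)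
    (hchart : ∃ a b : ℕ, ϖ ∈ D.𝓛 a b) :
    ∃ hv : D.V₂.O.valuation ϖ = D.V₂.O.valuation D.V₂.unif,
      ThickCtx (thickWithUnif D ϖ h0 hv) g g₁ g₂ g₃ :=
  ⟨valuation_eq_of_regData (h ⟨0, B.s_pos⟩) B.e_pos hpow,
    thickCtx_of_regData B h0 _ h hf₁ hf₃ hchart⟩

end Fermat.Agent.S36lib.Reg
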