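/-
S36lib / Reg / SimpleZeros  (helper8)  --  brick B4 (REG), the Riemann–Roch input

On a curve over an infinite field: in large degree there is a section of `L(E)` with a SIMPLE
zero at each of `s` prescribed points (outside the support of `E`).  Used to choose `τ̄` (a
simultaneous local parameter at all supersingular points, regular off the cusps).
-/
import Mathlib
import Fermat.Agent.LSb.Core.NodalRR

set_option autoImplicit false

noncomputable section

namespace Fermat.Agent.S36lib.Reg

open AlgebraicCurve Module
open Fermat.Agent.S18lib Fermat.Agent.S18lib.Cech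
open Fermat.Agent.LSb.Core

variable {K F : Type*} [Field K] [Field F] [Algebra K F] {g : ℕ}

/-- **Simultaneous simple zeros.**  If `deg E > 2 g - 1 + s` there is `f ∈ L(E)` with
`ord_{x c} f = 1` for all `c`. -/
theorem exists_mem_rr_ord_eq_one [Infinite K] (hF : IsCurveOfGenus K F g) {s : ℕ}
    {x : Fin s → Place K F} (hx : Function.Injective x) (E : Divisor K F)
    (hE : ∀ c, E (x c) = 0) (hdeg : 2 * (g : ℤ) - 1 + s < Divisor.degree E) :
    ∃ f ∈ riemannRochSpace E, ∀ c, (x c).ord f = 1 := by
  classical
  set D₀ : Divisor K F := E - sumPts x with hD₀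
  have hdegD₀ : Divisor.degree D₀ = Divisor.degree E - s := by
    rw [hD₀, map_sub, degree_sumPts x hF.deg_eq_one]
  have hD₀x : ∀ c, D₀ (x c) = -1 := by
    intro c
    rw [hD₀, Finsupp.sub_apply, hE c, sumPts_apply_self hx c]
    norm_num
  -- the smaller divisors
  set Dc : Fin s → Divisor K F := fun c => D₀ - Finsupp.single (x c) 1 with hDc
  have hDc_le : ∀ c v, Dc c v ≤ D₀ v := by
    intro c v
    rw [hDc, Finsupp.sub_apply, Finsupp.single_apply]
    split_ifs <;> omega
  have hdegDc : ∀ c, Divisor.degree (Dc c) = Divisor.degree D₀ - 1 := by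
    intro c
    rw [hDc, map_sub, Divisor.degree_single, hF.deg_eq_one]
    simp
  have := hF.finiteDimensional D₀
  have hfin : ∀ c, FiniteDimensional K (riemannRochSpace (Dc c)) := fun c =>
    hF.finiteDimensional _
  -- the subspaces of `L(D₀)`
  set p : Fin s → Submodule K (riemannRochSpace D₀) := fun c =>
    (riemannRochSpace (Dc c)).comap (riemannRochSpace D₀).subtype with hp
  have hpne : ∀ c, p c ≠ ⊤ := by
    intro c htop
    have hle : riemannRochSpace (Dc c) ≤ riemannRochSpace D₀ := rr_mono (hDc_le c)
    have hge : riemannRochSpace D₀ ≤ riemannRochSpace (Dc c) := by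
      intro f hf
      have : (⟨f, hf⟩ : riemannRochSpace D₀) ∈ p c := by rw [htop]; exact Submodule.mem_top
      exact this
    have heq : riemannRochSpace (Dc c) = riemannRochSpace D₀ := le_antisymm hle hge
    have r1 := hF.riemann_eq D₀ (by rw [hdegD₀]; linarith)
    have r2 := hF.riemann_eq (Dc c) (by rw [hdegDc, hdegD₀]; linarith)
    rw [heq, r1, hdegDc] at r2
    linarith
  obtain ⟨f, hf⟩ := Submodule.exists_forall_notMem_of_forall_ne_top p hpne
  refine ⟨(f : F), rr_mono (fun v => ?_) f.2, fun c => ?_⟩
  · rw [hD₀, Finsupp.sub_apply]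
    have := sumPts_nonneg x v
    omega
  · have hfc : (f : F) ∉ riemannRochSpace (Dc c) := hf c
    have hf0 : (f : F) ≠ 0 := by
      intro h0
      apply hfc
      rw [h0]
      exact Submodule.zero_mem _
    have h1 := (mem_rr_of_ne hf0).1 f.2 (x c)
    rw [hD₀x c] at h1
    rw [mem_rr_of_ne hf0] at hfc
    push Not at hfc
    obtain ⟨v, hv⟩ := hfc
    by_cases hvc : v = x c
    · subst hvc
      rw [hDc, Finsupp.sub_apply, Finsupp.single_apply, if_pos rfl, hD₀x c] at hv
      omega
    · exfalso
      have h2 := (mem_rr_of_ne hf0).1 f.2 v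
      rw [hDc, Finsupp.sub_apply, Finsupp.single_apply, if_neg (Ne.symm hvc)] at hv
      omega

end Fermat.Agent.S36lib.Reg
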