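/-
S36lib / Reg / Table  (helper8)  --  brick B4 (REG), from the reduction table to `RegData`

The local equations of the three components at level `M q²` are built from ONE function `τ` of
level `M` (integral, `τ̄` a local parameter at the supersingular points) and a lift `τ″` of
`V τ̄` (`V : t ↦ t^q`):

  `τ₀ = τ(z)`, `τ₂ = τ(q² z)`, `σ₁ = τ″(q z)`,
  `f₁ = τ₂ - σ₁`,  `f₃ = τ₀ - σ₁`,  `ϖ = f₁ - f₃ = τ₂ - τ₀`.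

With `ω̄ = V² τ̄` the REDUCTION TABLE is (rows `red₁ = v₂₀`, `red₂ = v₁₁`, `red₃ = v₀₂`)

  `τ₀ ↦ (τ̄, τ̄, ω̄)`,   `τ₂ ↦ (ω̄, τ̄, τ̄)`,   `σ₁ ↦ (ω̄, ω̄, ω̄)`,

so `red₁ f₁ = 0`, `red₃ f₃ = 0`, `red₂ ϖ = 0`, and all the other reductions of `f₁ f₃ ϖ` are
`± (τ̄ - ω̄)`, which has a SIMPLE zero at a triple point as soon as `τ̄` has one and `ω̄` vanishes
there to order `≥ 2` (it is a `q²`-th power and vanishes there by (GLUE) applied to `τ₀`).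

This file: `TableData` (the table + discreteness of the three valuation rings) and
`TableData.regData` (+ the hypotheses on the units `E₁ E₂ E₃`) `⟹ Reg.RegData`, hence (REG).
No modular input here; the instance supplies the table.
-/
import Mathlib
import Fermat.Agent.S36lib.Reg.Abstract

set_option autoImplicit false

noncomputable section

namespace Fermat.Agent.S36lib.Reg

open AlgebraicCurve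
open Fermat.Agent.LSb (HasValueAt)

/-! ### orders of differences -/

section Ord

variable {K Fk : Type*} [Field K] [Field Fk] [Algebra K Fk] {Q : Place K Fk}

/-- if `a` has a simple zero at `Q` and `b` vanishes to order `≥ 2` (or is `0`), then `a - b`
has a simple zero -/
theorem ord_sub_eq_one {a b : Fk} (ha : Q.ord a = 1) (hb : b = 0 ∨ 2 ≤ Q.ord b) :
    Q.ord (a - b) = 1 := by
  rcases hb with rfl | hb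
  · rwa [sub_zero]
  have ha0 : a ≠ 0 := ne_zero_of_ord_ne_zero (Q := Q) (by rw [ha]; norm_num)
  have hne : a - b ≠ 0 := by
    intro h
    rw [sub_eq_zero.1 h] at ha
    omega
  -- `ord (a - b) ≥ 1`
  have h1 : a + -b = 0 ∨ 1 ≤ Q.ord (a + -b) :=
    S18lib.Cech.ord_add_ge Q (Or.inr ha.ge) (Or.inr (by rw [S18lib.Cech.ord_neg]; omega))
  rw [← sub_eq_add_neg] at h1
  have h1' : 1 ≤ Q.ord (a - b) := h1.resolve_left hne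
  -- if it were `≥ 2` then `ord a ≥ 2`
  by_contra hne1
  have h2 : 2 ≤ Q.ord (a - b) := by omega
  have h3 : (a - b) + b = 0 ∨ 2 ≤ Q.ord ((a - b) + b) :=
    S18lib.Cech.ord_add_ge Q (Or.inr h2) (Or.inr hb)
  rw [sub_add_cancel] at h3
  rcases h3 with h3 | h3
  · exact ha0 h3
  · omega

theorem ord_sub_eq_one' {a b : Fk} (ha : Q.ord a = 1) (hb : b = 0 ∨ 2 ≤ Q.ord b) :
    Q.ord (b - a) = 1 := by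
  rw [← neg_sub, S18lib.Cech.ord_neg]
  exact ord_sub_eq_one ha hb

/-- a function with a positive order has the value `0` -/
theorem hasValueAt_zero_of_ord_pos {a : Fk} (ha : 0 < Q.ord a) : HasValueAt Q a 0 :=
  LSb.hasValueAt_zero_iff.2 (Or.inr ha)

end Ord

variable {F : Type*} [Field F] {k : Type*} [Field k] {κ : Type*} [Field κ] [Algebra k κ]

/-- **The reduction table** of `τ₀ = τ(z)`, `τ₂ = τ(q² z)`, `σ₁ = τ″(q z)` at the three places,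
and the discreteness of the three valuation rings (`π` a uniformizer of `O₁`, `O₃`; `e` the
ramification index of `O₂`). -/
structure TableData (P₁ P₂ P₃ : Norm.Place F κ) (S : Subring F) (π : F) (e : ℕ) (τb ωb : κ)
    (τ₀ τ₂ σ₁ : F) : Prop where
  τ₀_mem : τ₀ ∈ S
  τ₂_mem : τ₂ ∈ S
  σ₁_mem : σ₁ ∈ S
  τ₀_mem₁ : τ₀ ∈ P₁.O
  τ₀_mem₂ : τ₀ ∈ P₂.O
  τ₀_mem₃ : τ₀ ∈ P₃.O
  τ₂_mem₁ : τ₂ ∈ P₁.O
  τ₂_mem₂ : τ₂ ∈ P₂.O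
  τ₂_mem₃ : τ₂ ∈ P₃.O
  σ₁_mem₁ : σ₁ ∈ P₁.O
  σ₁_mem₂ : σ₁ ∈ P₂.O
  σ₁_mem₃ : σ₁ ∈ P₃.O
  /-- `τ₀ ↦ (τ̄, τ̄, ω̄)` -/
  red₁_τ₀ : P₁.redF τ₀ = τb
  red₂_τ₀ : P₂.redF τ₀ = τb
  red₃_τ₀ : P₃.redF τ₀ = ωb
  /-- `τ₂ ↦ (ω̄, τ̄, τ̄)` -/
  red₁_τ₂ : P₁.redF τ₂ = ωb
  red₂_τ₂ : P₂.redF τ₂ = τb
  red₃_τ₂ : P₃.redF τ₂ = τb
  /-- `σ₁ ↦ (ω̄, ω̄, ω̄)` -/
  red₁_σ₁ : P₁.redF σ₁ = ωb
  red₂_σ₁ : P₂.redF σ₁ = ωb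
  red₃_σ₁ : P₃.redF σ₁ = ωb
  /-- `𝔪₁ = π O₁` -/
  disc₁ : ∀ f ∈ P₁.O, P₁.redF f = 0 → f * π⁻¹ ∈ P₁.O
  /-- `𝔪₃ = π O₃` -/
  disc₃ : ∀ f ∈ P₃.O, P₃.redF f = 0 → f * π⁻¹ ∈ P₃.O
  /-- `𝔪₂ ^ e ⊆ π O₂` -/
  disc₂ : ∀ f ∈ P₂.O, P₂.redF f = 0 → f ^ e * π⁻¹ ∈ P₂.O

namespace TableData

variable {P₁ P₂ P₃ : Norm.Place F κ} {S : Subring F} {π : F} {e : ℕ} {τb ωb : κ} {τ₀ τ₂ σ₁ : F}
variable (T : TableData P₁ P₂ P₃ S π e τb ωb τ₀ τ₂ σ₁)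

include T

/-! ### the reductions of `f₁ = τ₂ - σ₁`, `f₃ = τ₀ - σ₁`, `ϖ = τ₂ - τ₀` -/

theorem red₁_f₁ : P₁.redF (τ₂ - σ₁) = 0 := by
  rw [P₁.redF_sub T.τ₂_mem₁ T.σ₁_mem₁, T.red₁_τ₂, T.red₁_σ₁, sub_self]

theorem red₂_f₁ : P₂.redF (τ₂ - σ₁) = τb - ωb := by
  rw [P₂.redF_sub T.τ₂_mem₂ T.σ₁_mem₂, T.red₂_τ₂, T.red₂_σ₁]

theorem red₃_f₁ : P₃.redF (τ₂ - σ₁) = τb - ωb := by
  rw [P₃.redF_sub T.τ₂_mem₃ T.σ₁_mem₃, T.red₃_τ₂, T.red₃_σ₁]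

theorem red₁_f₃ : P₁.redF (τ₀ - σ₁) = τb - ωb := by
  rw [P₁.redF_sub T.τ₀_mem₁ T.σ₁_mem₁, T.red₁_τ₀, T.red₁_σ₁]

theorem red₂_f₃ : P₂.redF (τ₀ - σ₁) = τb - ωb := by
  rw [P₂.redF_sub T.τ₀_mem₂ T.σ₁_mem₂, T.red₂_τ₀, T.red₂_σ₁]

theorem red₃_f₃ : P₃.redF (τ₀ - σ₁) = 0 := by
  rw [P₃.redF_sub T.τ₀_mem₃ T.σ₁_mem₃, T.red₃_τ₀, T.red₃_σ₁, sub_self]

theorem red₁_ϖ : P₁.redF (τ₂ - τ₀) = ωb - τb := by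
  rw [P₁.redF_sub T.τ₂_mem₁ T.τ₀_mem₁, T.red₁_τ₂, T.red₁_τ₀]

theorem red₂_ϖ : P₂.redF (τ₂ - τ₀) = 0 := by
  rw [P₂.redF_sub T.τ₂_mem₂ T.τ₀_mem₂, T.red₂_τ₂, T.red₂_τ₀, sub_self]

theorem red₃_ϖ : P₃.redF (τ₂ - τ₀) = τb - ωb := by
  rw [P₃.redF_sub T.τ₂_mem₃ T.τ₀_mem₃, T.red₃_τ₂, T.red₃_τ₀]

/-! ### consequences of (GLUE) for `ω̄` -/

variable {x₁ x₂ x₃ : Place k κ}

/-- by (GLUE) applied to `τ₂`: where `τ̄` vanishes on the third component, `ω̄` has the value `0`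
on the first one -/
theorem ωb_value₁ (hG : GlueAt P₁ P₂ P₃ x₁ x₂ x₃ (S : Set F)) (h₃ : 0 < x₃.ord τb) :
    ωb = 0 ∨ 0 < x₁.ord ωb := by
  have h := (hG.of_value₃ T.τ₂_mem T.τ₂_mem₁ T.τ₂_mem₂ T.τ₂_mem₃ (α := 0)
    (by rw [T.red₃_τ₂]; exact hasValueAt_zero_of_ord_pos h₃)).1
  rw [T.red₁_τ₂] at h
  exact LSb.hasValueAt_zero_iff.1 h

/-- by (GLUE) applied to `τ₀`: where `τ̄` vanishes on the first component, `ω̄` has the value `0`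
on the third one -/
theorem ωb_value₃ (hG : GlueAt P₁ P₂ P₃ x₁ x₂ x₃ (S : Set F)) (h₁ : 0 < x₁.ord τb) :
    ωb = 0 ∨ 0 < x₃.ord ωb := by
  have h := (hG.of_value₁ T.τ₀_mem T.τ₀_mem₁ T.τ₀_mem₂ T.τ₀_mem₃ (α := 0)
    (by rw [T.red₁_τ₀]; exact hasValueAt_zero_of_ord_pos h₁)).2
  rw [T.red₃_τ₀] at h
  exact LSb.hasValueAt_zero_iff.1 h

/-- **From the table to `RegData`** at one triple point `(x₁, x₂, x₃)`: `τ̄` has a simple zero at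
`x₁` and at `x₃`, `ω̄` has no simple zeros at `x₁`, `x₃` (it is a `q²`-th power), (GLUE), and the
three units. -/
theorem regData {m : ℕ} {E₁ E₂ E₃ : F}
    (hG : GlueAt P₁ P₂ P₃ x₁ x₂ x₃ (S : Set F)) (hd₁ : x₁.deg = 1) (hd₃ : x₃.deg = 1)
    (hm : 0 < m) (hπ : π ≠ 0) (hπS : π⁻¹ ∈ S)
    (hE₁S : E₁⁻¹ ∈ S) (hE₂S : E₂⁻¹ ∈ S) (hE₃S : E₃⁻¹ ∈ S) (hE : E₁ * E₂ * E₃ = π ^ m)
    (hE₁₁ : P₁.redF (E₁ * (π ^ m)⁻¹) ≠ 0) (hE₁₂ : P₂.redF E₁ ≠ 0) (hE₁₃ : P₃.redF E₁ ≠ 0)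
    (hE₃₁ : P₁.redF E₃ ≠ 0) (hE₃₂ : P₂.redF E₃ ≠ 0) (hE₃₃ : P₃.redF (E₃ * (π ^ m)⁻¹) ≠ 0)
    (hoE₁ : x₃.ord (P₃.redF E₁) = m) (hoE₃ : x₁.ord (P₁.redF E₃) = m)
    (hoE₂ : x₁.ord (P₁.redF E₂) = e * m)
    (hτ₁ : x₁.ord τb = 1) (hτ₃ : x₃.ord τb = 1)
    (hω₁ : 0 < x₁.ord ωb → 2 ≤ x₁.ord ωb) (hω₃ : 0 < x₃.ord ωb → 2 ≤ x₃.ord ωb) :
    RegData P₁ P₂ P₃ x₁ x₂ x₃ S π e m E₁ E₂ E₃ (τ₂ - σ₁) (τ₀ - σ₁) (τ₂ - τ₀) := by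
  have hω₁' : ωb = 0 ∨ 2 ≤ x₁.ord ωb :=
    (T.ωb_value₁ hG (by rw [hτ₃]; norm_num)).imp id hω₁
  have hω₃' : ωb = 0 ∨ 2 ≤ x₃.ord ωb :=
    (T.ωb_value₃ hG (by rw [hτ₁]; norm_num)).imp id hω₃
  exact
    { glue := hG
      deg₁ := hd₁
      deg₃ := hd₃
      m_pos := hm
      π_ne := hπ
      π_inv_mem := hπS
      E₁_inv_mem := hE₁S
      E₂_inv_mem := hE₂S
      E₃_inv_mem := hE₃S
      E_mul := hE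
      E₁_red₁ := hE₁₁
      E₁_red₂ := hE₁₂
      E₁_red₃ := hE₁₃
      E₃_red₁ := hE₃₁
      E₃_red₂ := hE₃₂
      E₃_red₃ := hE₃₃
      ord_E₁ := hoE₁
      ord_E₃ := hoE₃
      ord_E₂ := hoE₂
      f₁_mem := S.sub_mem T.τ₂_mem T.σ₁_mem
      f₁_mem₁ := T.disc₁ _ (P₁.O.sub_mem T.τ₂_mem₁ T.σ₁_mem₁) T.red₁_f₁
      f₁_mem₂ := P₂.O.sub_mem T.τ₂_mem₂ T.σ₁_mem₂
      f₁_mem₃ := P₃.O.sub_mem T.τ₂_mem₃ T.σ₁_mem₃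
      ord_f₁ := by rw [T.red₃_f₁]; exact ord_sub_eq_one hτ₃ hω₃'
      f₃_mem := S.sub_mem T.τ₀_mem T.σ₁_mem
      f₃_mem₁ := P₁.O.sub_mem T.τ₀_mem₁ T.σ₁_mem₁
      f₃_mem₂ := P₂.O.sub_mem T.τ₀_mem₂ T.σ₁_mem₂
      f₃_mem₃ := T.disc₃ _ (P₃.O.sub_mem T.τ₀_mem₃ T.σ₁_mem₃) T.red₃_f₃
      ord_f₃ := by rw [T.red₁_f₃]; exact ord_sub_eq_one hτ₁ hω₁'
      ϖ_mem := S.sub_mem T.τ₂_mem T.τ₀_mem
      ϖ_mem₁ := P₁.O.sub_mem T.τ₂_mem₁ T.τ₀_mem₁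
      ϖ_mem₂ := T.disc₂ _ (P₂.O.sub_mem T.τ₂_mem₂ T.τ₀_mem₂) T.red₂_ϖ
      ϖ_mem₃ := P₃.O.sub_mem T.τ₂_mem₃ T.τ₀_mem₃
      ord_ϖ := by rw [T.red₁_ϖ]; exact ord_sub_eq_one' hτ₁ hω₁' }

end TableData

end Fermat.Agent.S36lib.Reg
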