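/-
S36lib / Reg / Rows  (helper8)  --  brick B4 (REG): from the RESTRICTION ROWS to `RegData`

Abstract form of the modular situation: fields `F' → G ⇉ F` (levels `M`, `M q`, `M q²`) with the
degeneracy maps `α₁ β₁ : F' → G`, `α₂ β₂ : G → F` (`β₂ α₁ = α₂ β₁`), places `W_M` of `F'`,
`W₁ W₂` of `G` (`v₁₀`, `v₀₁`), `P₁ P₂ P₃` of `F` (`v₂₀`, `v₁₁`, `v₀₂`), all with the same residue
field `κ`, and a ring endomorphism `V` of `κ` (`t ↦ t^q`).  A ROW `Row ψ ι P' P` says that the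
place `P` restricts along `ψ` to the place `P'` with residue embedding `ι`
(`mem` + `red` of helper7's `RamOverAlong`).  The ten rows of the tower

  `W₁ ∘ α₁ = W_M`, `W₁ ∘ β₁ = V ∘ W_M`, `W₂ ∘ α₁ = V ∘ W_M`, `W₂ ∘ β₁ = W_M`,
  `P₁ ∘ α₂ = W₁`, `P₁ ∘ β₂ = V ∘ W₁`, `P₂ ∘ α₂ = W₁`, `P₂ ∘ β₂ = W₂`, `P₃ ∘ α₂ = V ∘ W₂`,
  `P₃ ∘ β₂ = W₂`

give the REDUCTION TABLE of `τ₀ = α₂ α₁ τ`, `τ₂ = β₂ β₁ τ`, `σ₁ = α₂ β₁ τ″` (`red τ″ = V (red τ)`)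
(`Rows.tableData`), and the valuations / reductions of the three units
`E₁ = β₂ Y`, `E₃ = α₂ X`, `E₂ = π^m / (E₁ E₃)` for `X Y = π₀^m` in `G` (`Rows.regData`).
-/
import Mathlib
import Fermat.Agent.S36lib.Reg.Table

set_option autoImplicit false
set_option linter.unusedSectionVars false

noncomputable section

namespace Fermat.Agent.S36lib.Reg

open AlgebraicCurve
open Fermat.Agent.LSb (HasValueAt)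

/-- the place `P` of `F` restricts along `ψ` to the place `P'` of `G`, with residue embedding
`ι` -/
structure Row {G F : Type*} [Field G] [Field F] {κ' κ : Type*} [Field κ'] [Field κ]
    (ψ : G →+* F) (ι : κ' →+* κ) (P' : Norm.Place G κ') (P : Norm.Place F κ) : Prop where
  mem : ∀ y : G, y ∈ P'.O → ψ y ∈ P.O
  red : ∀ y : G, y ∈ P'.O → P.redF (ψ y) = ι (P'.redF y)

namespace Row

variable {F' G F : Type*} [Field F'] [Field G] [Field F]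
variable {κ'' κ' κ : Type*} [Field κ''] [Field κ'] [Field κ]

/-- composition of rows -/
theorem comp {ψ₂ : G →+* F} {ι₂ : κ' →+* κ} {P' : Norm.Place G κ'} {P : Norm.Place F κ}
    {ψ₁ : F' →+* G} {ι₁ : κ'' →+* κ'} {P'' : Norm.Place F' κ''}
    (h₂ : Row ψ₂ ι₂ P' P) (h₁ : Row ψ₁ ι₁ P'' P') : Row (ψ₂.comp ψ₁) (ι₂.comp ι₁) P'' P where
  mem y hy := h₂.mem _ (h₁.mem y hy)
  red y hy := by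
    show P.redF (ψ₂ (ψ₁ y)) = ι₂ (ι₁ (P''.redF y))
    rw [h₂.red _ (h₁.mem y hy), h₁.red y hy]

/-- a row maps units to units -/
theorem redF_ne_zero {ψ : G →+* F} {ι : κ' →+* κ} {P' : Norm.Place G κ'} {P : Norm.Place F κ}
    (h : Row ψ ι P' P) {y : G} (hy : P'.redF y ≠ 0) : P.redF (ψ y) ≠ 0 := by
  rw [h.red y (P'.mem_of_redF_ne_zero hy)]
  exact (map_ne_zero ι).2 hy

end Row

/-- **The ten rows of the tower** `F' → G ⇉ F`. -/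
structure Rows {F' G F κ : Type*} [Field F'] [Field G] [Field F] [Field κ]
    (α₁ β₁ : F' →+* G) (α₂ β₂ : G →+* F) (V : κ →+* κ)
    (WM : Norm.Place F' κ) (W₁ W₂ : Norm.Place G κ) (P₁ P₂ P₃ : Norm.Place F κ) : Prop where
  comm : ∀ y, β₂ (α₁ y) = α₂ (β₁ y)
  w₁α : Row α₁ (RingHom.id κ) WM W₁
  w₁β : Row β₁ V WM W₁
  w₂α : Row α₁ V WM W₂
  w₂β : Row β₁ (RingHom.id κ) WM W₂
  p₁α : Row α₂ (RingHom.id κ) W₁ P₁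
  p₁β : Row β₂ V W₁ P₁
  p₂α : Row α₂ (RingHom.id κ) W₁ P₂
  p₂β : Row β₂ (RingHom.id κ) W₂ P₂
  p₃α : Row α₂ V W₂ P₃
  p₃β : Row β₂ (RingHom.id κ) W₂ P₃

namespace Rows

variable {F' G F κ : Type*} [Field F'] [Field G] [Field F] [Field κ]
variable {α₁ β₁ : F' →+* G} {α₂ β₂ : G →+* F} {V : κ →+* κ}
variable {WM : Norm.Place F' κ} {W₁ W₂ : Norm.Place G κ} {P₁ P₂ P₃ : Norm.Place F κ}
variable (T : Rows α₁ β₁ α₂ β₂ V WM W₁ W₂ P₁ P₂ P₃)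

include T

/-- **the reduction table** of `τ₀ = α₂ α₁ τ`, `τ₂ = β₂ β₁ τ`, `σ₁ = α₂ β₁ τ″` -/
theorem tableData {S : Subring F} {π : F} {e : ℕ} {τ τ'' : F'} (hτ : τ ∈ WM.O) (hτ'' : τ'' ∈ WM.O)
    (hred : WM.redF τ'' = V (WM.redF τ))
    (hτ₀S : α₂ (α₁ τ) ∈ S) (hτ₂S : β₂ (β₁ τ) ∈ S) (hσ₁S : α₂ (β₁ τ'') ∈ S)
    (disc₁ : ∀ f ∈ P₁.O, P₁.redF f = 0 → f * π⁻¹ ∈ P₁.O)
    (disc₃ : ∀ f ∈ P₃.O, P₃.redF f = 0 → f * π⁻¹ ∈ P₃.O)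
    (disc₂ : ∀ f ∈ P₂.O, P₂.redF f = 0 → f ^ e * π⁻¹ ∈ P₂.O) :
    TableData P₁ P₂ P₃ S π e (WM.redF τ) (V (V (WM.redF τ))) (α₂ (α₁ τ)) (β₂ (β₁ τ))
      (α₂ (β₁ τ'')) where
  τ₀_mem := hτ₀S
  τ₂_mem := hτ₂S
  σ₁_mem := hσ₁S
  τ₀_mem₁ := T.p₁α.mem _ (T.w₁α.mem _ hτ)
  τ₀_mem₂ := T.p₂α.mem _ (T.w₁α.mem _ hτ)
  τ₀_mem₃ := T.p₃α.mem _ (T.w₂α.mem _ hτ)
  τ₂_mem₁ := T.p₁β.mem _ (T.w₁β.mem _ hτ)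
  τ₂_mem₂ := T.p₂β.mem _ (T.w₂β.mem _ hτ)
  τ₂_mem₃ := T.p₃β.mem _ (T.w₂β.mem _ hτ)
  σ₁_mem₁ := T.p₁α.mem _ (T.w₁β.mem _ hτ'')
  σ₁_mem₂ := T.p₂α.mem _ (T.w₁β.mem _ hτ'')
  σ₁_mem₃ := T.p₃α.mem _ (T.w₂β.mem _ hτ'')
  red₁_τ₀ := by rw [T.p₁α.red _ (T.w₁α.mem _ hτ), T.w₁α.red _ hτ]; rfl
  red₂_τ₀ := by rw [T.p₂α.red _ (T.w₁α.mem _ hτ), T.w₁α.red _ hτ]; rfl
  red₃_τ₀ := by rw [T.p₃α.red _ (T.w₂α.mem _ hτ), T.w₂α.red _ hτ]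
  red₁_τ₂ := by rw [T.p₁β.red _ (T.w₁β.mem _ hτ), T.w₁β.red _ hτ]
  red₂_τ₂ := by rw [T.p₂β.red _ (T.w₂β.mem _ hτ), T.w₂β.red _ hτ]; rfl
  red₃_τ₂ := by rw [T.p₃β.red _ (T.w₂β.mem _ hτ), T.w₂β.red _ hτ]; rfl
  red₁_σ₁ := by rw [T.p₁α.red _ (T.w₁β.mem _ hτ''), T.w₁β.red _ hτ'', hred]; rfl
  red₂_σ₁ := by rw [T.p₂α.red _ (T.w₁β.mem _ hτ''), T.w₁β.red _ hτ'', hred]; rfl
  red₃_σ₁ := by rw [T.p₃α.red _ (T.w₂β.mem _ hτ''), T.w₂β.red _ hτ'', hred]; rfl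
  disc₁ := disc₁
  disc₃ := disc₃
  disc₂ := disc₂

/-! ### the three units -/

section Units

variable {π₀ X Y : G} {H : κ} {m : ℕ}

omit T in
/-- `X = π₀^m / Y` at the place where `Y / π₀^m` is a unit with residue `H⁻¹` -/
theorem redF_X_of_Y {W : Norm.Place G κ} (hπ₀ : π₀ ≠ 0) (hXY : X * Y = π₀ ^ m)
    (hr : W.redF (Y * (π₀ ^ m)⁻¹) = H⁻¹) (hH : H ≠ 0) : W.redF X = H := by
  have hne : W.redF (Y * (π₀ ^ m)⁻¹) ≠ 0 := by rw [hr]; exact inv_ne_zero hH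
  have hπm : π₀ ^ m ≠ 0 := pow_ne_zero m hπ₀
  have hY0 : Y ≠ 0 := by
    rintro rfl
    rw [mul_zero] at hXY
    exact hπm hXY.symm
  have hX : X = (Y * (π₀ ^ m)⁻¹)⁻¹ := by
    rw [mul_inv, inv_inv, ← hXY]
    field_simp
  rw [hX, W.redF_inv hne, hr, inv_inv]

omit T in
/-- `X / π₀^m = Y⁻¹` at the place where `Y` is a unit with residue `H` -/
theorem redF_X_div_of_Y {W : Norm.Place G κ} (hπ₀ : π₀ ≠ 0) (hXY : X * Y = π₀ ^ m)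
    (hr : W.redF Y = H) (hH : H ≠ 0) :
    X * (π₀ ^ m)⁻¹ ∈ W.O ∧ W.redF (X * (π₀ ^ m)⁻¹) = H⁻¹ := by
  have hne : W.redF Y ≠ 0 := by rw [hr]; exact hH
  have hπm : π₀ ^ m ≠ 0 := pow_ne_zero m hπ₀
  have hY0 : Y ≠ 0 := by
    rintro rfl
    rw [mul_zero] at hXY
    exact hπm hXY.symm
  have hX0 : X ≠ 0 := by
    rintro rfl
    rw [zero_mul] at hXY
    exact hπm hXY.symm
  have hX : X * (π₀ ^ m)⁻¹ = Y⁻¹ := by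
    rw [← hXY]
    field_simp
  rw [hX]
  exact ⟨W.inv_mem_of_redF_ne_zero hne, by rw [W.redF_inv hne, hr]⟩

end Units

/-- **From the rows to `RegData`** at one triple point `(x₁, x₂, x₃)`.

Inputs: the rows; `τ`, `τ″` of level `M` with `red τ″ = V (red τ)`; the two functions `X Y` of
level `M q` with `X Y = π₀^m`, `red₁₀ (Y / π₀^m) = H⁻¹`, `red₀₁ Y = H`; (GLUE) on `S`; the orders of
`H`, `V H`, `τ̄`, `V² τ̄` at the triple point. -/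
theorem regData {k : Type*} [Field k] [Algebra k κ] {x₁ x₂ x₃ : Place k κ}
    {S : Subring F} {π : F} {e m : ℕ} {τ τ'' : F'} {π₀ X Y : G} {H : κ}
    (hτ : τ ∈ WM.O) (hτ'' : τ'' ∈ WM.O) (hred : WM.redF τ'' = V (WM.redF τ))
    (hτ₀S : α₂ (α₁ τ) ∈ S) (hτ₂S : β₂ (β₁ τ) ∈ S) (hσ₁S : α₂ (β₁ τ'') ∈ S)
    (disc₁ : ∀ f ∈ P₁.O, P₁.redF f = 0 → f * π⁻¹ ∈ P₁.O)
    (disc₃ : ∀ f ∈ P₃.O, P₃.redF f = 0 → f * π⁻¹ ∈ P₃.O)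
    (disc₂ : ∀ f ∈ P₂.O, P₂.redF f = 0 → f ^ e * π⁻¹ ∈ P₂.O)
    (hG : GlueAt P₁ P₂ P₃ x₁ x₂ x₃ (S : Set F)) (hd₁ : x₁.deg = 1) (hd₃ : x₃.deg = 1)
    (hm : 0 < m) (hπ₀ : π₀ ≠ 0) (hαπ : α₂ π₀ = π) (hβπ : β₂ π₀ = π) (hπS : π⁻¹ ∈ S)
    (hXY : X * Y = π₀ ^ m) (hY₁ : W₁.redF (Y * (π₀ ^ m)⁻¹) = H⁻¹) (hY₂ : W₂.redF Y = H)
    (hH : H ≠ 0)
    (hE₁S : β₂ Y ∈ S) (hE₁S' : (β₂ Y)⁻¹ ∈ S) (hE₃S : α₂ X ∈ S) (hE₃S' : (α₂ X)⁻¹ ∈ S)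
    (hoH₁ : x₁.ord H = m) (hoH₃ : x₃.ord H = m) (hoVH : x₁.ord (V H) = ((e : ℤ) + 1) * m)
    (hτ₁ : x₁.ord (WM.redF τ) = 1) (hτ₃ : x₃.ord (WM.redF τ) = 1)
    (hω₁ : 0 < x₁.ord (V (V (WM.redF τ))) → 2 ≤ x₁.ord (V (V (WM.redF τ))))
    (hω₃ : 0 < x₃.ord (V (V (WM.redF τ))) → 2 ≤ x₃.ord (V (V (WM.redF τ)))) :
    RegData P₁ P₂ P₃ x₁ x₂ x₃ S π e m (β₂ Y) (π ^ m * (β₂ Y)⁻¹ * (α₂ X)⁻¹) (α₂ X)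
      (β₂ (β₁ τ) - α₂ (β₁ τ'')) (α₂ (α₁ τ) - α₂ (β₁ τ'')) (β₂ (β₁ τ) - α₂ (α₁ τ)) := by
  have hπm₀ : π₀ ^ m ≠ 0 := pow_ne_zero m hπ₀
  have hπ : π ≠ 0 := by rw [← hαπ]; exact (map_ne_zero α₂).2 hπ₀
  have hπm : π ^ m ≠ 0 := pow_ne_zero m hπ
  have hHi : H⁻¹ ≠ 0 := inv_ne_zero hH
  have hVHi : V H⁻¹ ≠ 0 := (map_ne_zero V).2 hHi
  -- the level `M q` facts
  have hY₁ne : W₁.redF (Y * (π₀ ^ m)⁻¹) ≠ 0 := by rw [hY₁]; exact hHi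
  have hY₂ne : W₂.redF Y ≠ 0 := by rw [hY₂]; exact hH
  have hX₁ : W₁.redF X = H := redF_X_of_Y hπ₀ hXY hY₁ hH
  have hX₁ne : W₁.redF X ≠ 0 := by rw [hX₁]; exact hH
  obtain ⟨hX₂m, hX₂⟩ := redF_X_div_of_Y (W := W₂) hπ₀ hXY hY₂ hH
  have hX₂ne : W₂.redF (X * (π₀ ^ m)⁻¹) ≠ 0 := by rw [hX₂]; exact hHi
  -- `E₁ / π^m` and `E₃ / π^m`
  have e₁ : β₂ Y * (π ^ m)⁻¹ = β₂ (Y * (π₀ ^ m)⁻¹) := by
    rw [map_mul, map_inv₀, map_pow, hβπ]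
  have e₃ : α₂ X * (π ^ m)⁻¹ = α₂ (X * (π₀ ^ m)⁻¹) := by
    rw [map_mul, map_inv₀, map_pow, hαπ]
  have hE₁₁ : P₁.redF (β₂ Y * (π ^ m)⁻¹) = V H⁻¹ := by
    rw [e₁, T.p₁β.red _ (W₁.mem_of_redF_ne_zero hY₁ne), hY₁]
  have hE₁₂ : P₂.redF (β₂ Y) = H := by
    rw [T.p₂β.red _ (W₂.mem_of_redF_ne_zero hY₂ne), hY₂]; rfl
  have hE₁₃ : P₃.redF (β₂ Y) = H := by
    rw [T.p₃β.red _ (W₂.mem_of_redF_ne_zero hY₂ne), hY₂]; rfl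
  have hE₃₁ : P₁.redF (α₂ X) = H := by
    rw [T.p₁α.red _ (W₁.mem_of_redF_ne_zero hX₁ne), hX₁]; rfl
  have hE₃₂ : P₂.redF (α₂ X) = H := by
    rw [T.p₂α.red _ (W₁.mem_of_redF_ne_zero hX₁ne), hX₁]; rfl
  have hE₃₃ : P₃.redF (α₂ X * (π ^ m)⁻¹) = V H⁻¹ := by
    rw [e₃, T.p₃α.red _ hX₂m, hX₂]
  have hE₁ne : β₂ Y ≠ 0 := by
    intro h0
    rw [h0, P₂.redF_zero] at hE₁₂
    exact hH hE₁₂.symm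
  have hE₃ne : α₂ X ≠ 0 := by
    intro h0
    rw [h0, P₂.redF_zero] at hE₃₂
    exact hH hE₃₂.symm
  -- `E₂`
  have hE₂inv : (π ^ m * (β₂ Y)⁻¹ * (α₂ X)⁻¹)⁻¹ = β₂ Y * α₂ X * π⁻¹ ^ m := by
    rw [inv_pow]
    field_simp
  have hE₂eq : π ^ m * (β₂ Y)⁻¹ * (α₂ X)⁻¹ = (β₂ Y * (π ^ m)⁻¹)⁻¹ * (α₂ X)⁻¹ := by
    field_simp
  have hE₁₁ne : P₁.redF (β₂ Y * (π ^ m)⁻¹) ≠ 0 := by rw [hE₁₁]; exact hVHi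
  have hE₃₁ne : P₁.redF (α₂ X) ≠ 0 := by rw [hE₃₁]; exact hH
  have hE₂₁ : P₁.redF (π ^ m * (β₂ Y)⁻¹ * (α₂ X)⁻¹) = V H * H⁻¹ := by
    rw [hE₂eq, P₁.redF_mul (P₁.inv_mem_of_redF_ne_zero hE₁₁ne)
      (P₁.inv_mem_of_redF_ne_zero hE₃₁ne), P₁.redF_inv hE₁₁ne, P₁.redF_inv hE₃₁ne, hE₁₁, hE₃₁,
      map_inv₀, inv_inv]
  have hVH : V H ≠ 0 := (map_ne_zero V).2 hH
  refine (T.tableData hτ hτ'' hred hτ₀S hτ₂S hσ₁S disc₁ disc₃ disc₂).regData hG hd₁ hd₃ hm hπ hπS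
    hE₁S' ?_ hE₃S' ?_ ?_ ?_ ?_ ?_ ?_ ?_ ?_ ?_ ?_ hτ₁ hτ₃ hω₁ hω₃
  · rw [hE₂inv]
    exact S.mul_mem (S.mul_mem hE₁S hE₃S) (S.pow_mem hπS m)
  · field_simp
  · exact hE₁₁ne
  · rw [hE₁₂]; exact hH
  · rw [hE₁₃]; exact hH
  · exact hE₃₁ne
  · rw [hE₃₂]; exact hH
  · rw [hE₃₃]; exact hVHi
  · rw [hE₁₃]; exact hoH₃
  · rw [hE₃₁]; exact hoH₁
  · rw [hE₂₁, x₁.ord_mul hVH hHi, x₁.ord_inv, hoVH, hoH₁]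
    ring

end Rows

end Fermat.Agent.S36lib.Reg
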