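/-
S36lib / Reg / FrobOrd  (helper3)

**The Frobenius substitution `Vq : t ↦ t^q` of `FRes A M` has ramification index `q` at every
place**:  `x'.ord (Vq z) = q * (F x').ord z`, where `F x' = frobPlace Vq x'` is the Frobenius image
of the place `x'` (LSb's first node point `modX₁` is `F (modX₂)`).

* `frobCoeffInv`, `frobCoeffInv_pow : (frobCoeffInv hA z) ^ q = Vq z` — every `Vq z` is a `q`-th
  power (coefficientwise inverse Frobenius, `k` perfect);
* `ord_VqR : x'.ord (VqR hA z) = q * (frobPlace … x').ord z`;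
* `q_dvd_ord_VqR`, `ord_VqR_ge` : if `z` vanishes at `F x'` then `Vq z` vanishes to order `≥ q` at
  `x'`; iterated: `ord_VqR_VqR_ge` (order `≥ q²` for `Vq (Vq z)`).
-/
import Mathlib
import Fermat.Agent.LSb.Unit.Instance

set_option autoImplicit false
set_option linter.unusedSectionVars false

noncomputable section

namespace Fermat.Agent.S36lib.Reg

open AlgebraicCurve ModularCurve HahnSeries
open Fermat.Agent.S18lib Fermat.Agent.ProgramR Fermat.Agent.LSb Fermat.Agent.LSb.Unit

variable {M q : ℕ} [NeZero M] [NeZero q] [hq : Fact q.Prime]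
variable {A : ValuationSubring (AlgebraicClosure ℚ)}

local notation "kA" => IsLocalRing.ResidueField A

/-- the coefficientwise inverse Frobenius of `FRes A M` -/
def frobCoeffInv (hA : A.LiesOverPrime q) (z : FRes A M) : FRes A M :=
  haveI := Old.charP_kRes hA
  haveI : IsAlgClosed kA := Gink.isAlgClosed_residueField A
  ⟨coeffMap ((frobeniusEquiv kA q).symm : kA →+* kA) (z : LaurentSeries kA),
    S37lib.C0.coeffMap_mem_fullC _ z.2⟩

/-- `Vq z` is the `q`-th power of the inverse Frobenius twist of `z` -/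
theorem frobCoeffInv_pow (hA : A.LiesOverPrime q) (z : FRes A M) :
    frobCoeffInv hA z ^ q = VqR hA z := by
  have := Old.charP_kRes hA
  have : IsAlgClosed kA := Gink.isAlgClosed_residueField A
  apply Subtype.ext
  rw [SubmonoidClass.coe_pow]
  show (coeffMap ((frobeniusEquiv kA q).symm : kA →+* kA) (z : LaurentSeries kA)) ^ q =
    qExpand kA q (z : LaurentSeries kA)
  rw [S37lib.ConjNorm.pow_char_eq_qExpand q]
  congr 1
  ext n
  simp only [coeffMap_coeff, RingHom.coe_coe]
  exact frobenius_apply_frobeniusEquiv_symm kA q _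

/-- the Frobenius image of a place -/
abbrev frobPl (hA : A.LiesOverPrime q) (x' : Place kA (FRes A M)) : Place kA (FRes A M) :=
  frobPlace (VqR hA) (VqR_algebraMap hA) x' (comap_ne_top_of_pow (VqR hA) hq.out.pos (VqR_pow hA) _)

/-- **the ramification index of the Frobenius substitution is `q`** -/
theorem ord_VqR (hA : A.LiesOverPrime q) (x' : Place kA (FRes A M)) (z : FRes A M) :
    x'.ord (VqR hA z) = q * (frobPl hA x').ord z := by
  obtain ⟨e, he, hord⟩ := S29lib.D.exists_ramification (VqR hA)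
    (fun a => ⟨a, VqR_algebraMap hA a⟩) x'
    (comap_ne_top_of_pow (VqR hA) hq.out.pos (VqR_pow hA) _)
  have hord' : ∀ z : FRes A M, x'.ord (VqR hA z) = e * (frobPl hA x').ord z := hord
  -- `e ∣ q`: a uniformizer at `x'` raised to the `q` is in the image of `Vq`
  have h1 : (e : ℤ) ∣ q := by
    obtain ⟨π, hπ⟩ := IsDiscreteValuationRing.exists_irreducible x'.toValuationSubring
    obtain ⟨w, hw⟩ := VqR_pow hA (π : FRes A M)
    have h2 := hord' w
    rw [hw, Cech.ord_pow, x'.ord_coe_irreducible hπ, mul_one] at h2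
    exact ⟨_, h2⟩
  -- `q ∣ e`: `Vq` of a uniformizer at `F x'` is a `q`-th power
  have h2 : (q : ℤ) ∣ e := by
    obtain ⟨π, hπ⟩ := IsDiscreteValuationRing.exists_irreducible (frobPl hA x').toValuationSubring
    have h3 := hord' (π : FRes A M)
    rw [(frobPl hA x').ord_coe_irreducible hπ, mul_one, ← frobCoeffInv_pow hA, Cech.ord_pow] at h3
    exact ⟨_, h3.symm⟩
  have hq0 : (0 : ℤ) ≤ q := Int.natCast_nonneg q
  have he0 : (0 : ℤ) ≤ e := Int.natCast_nonneg e
  have heq : (e : ℤ) = q := Int.dvd_antisymm he0 hq0 h1 h2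
  rw [hord', heq]

/-- the order of `Vq z` at any place is divisible by `q` -/
theorem q_dvd_ord_VqR (hA : A.LiesOverPrime q) (x' : Place kA (FRes A M)) (z : FRes A M) :
    (q : ℤ) ∣ x'.ord (VqR hA z) := ⟨_, ord_VqR hA x' z⟩

/-- if `z` vanishes at the Frobenius image of `x'`, then `Vq z` vanishes to order `≥ q` at `x'` -/
theorem ord_VqR_ge (hA : A.LiesOverPrime q) (x' : Place kA (FRes A M)) {z : FRes A M}
    (hz : 0 < (frobPl hA x').ord z) : (q : ℤ) ≤ x'.ord (VqR hA z) := by
  rw [ord_VqR hA x' z]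
  have hq1 : (0 : ℤ) ≤ q := Int.natCast_nonneg q
  nlinarith

/-- if `Vq z` vanishes at `x'` (as a value: positive order), its order there is at least `q` -/
theorem ord_VqR_ge_of_pos (hA : A.LiesOverPrime q) (x' : Place kA (FRes A M)) {z : FRes A M}
    (hz : 0 < x'.ord (VqR hA z)) : (q : ℤ) ≤ x'.ord (VqR hA z) := by
  obtain ⟨c, hc⟩ := q_dvd_ord_VqR hA x' z
  rw [hc] at hz ⊢
  have hq1 : (0 : ℤ) < q := by exact_mod_cast hq.out.pos
  have hc1 : 0 < c := by
    by_contra h
    push Not at h
    nlinarith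
  nlinarith

/-- `Vq (Vq z)`: positive order at `x'` forces order `≥ q²` -/
theorem ord_VqR_VqR_ge_of_pos (hA : A.LiesOverPrime q) (x' : Place kA (FRes A M)) {z : FRes A M}
    (hz : 0 < x'.ord (VqR hA (VqR hA z))) : ((q : ℤ)) ^ 2 ≤ x'.ord (VqR hA (VqR hA z)) := by
  have h1 := ord_VqR hA x' (VqR hA z)
  have hq1 : (0 : ℤ) < q := by exact_mod_cast hq.out.pos
  have h2 : 0 < (frobPl hA x').ord (VqR hA z) := by
    rw [h1] at hz
    by_contra h
    push Not at h
    nlinarith
  have h3 := ord_VqR_ge_of_pos hA (frobPl hA x') h2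
  rw [h1]
  nlinarith

end Fermat.Agent.S36lib.Reg
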