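/-
S36lib / Reg / Glue3  (helper3)  --  abstract GLUE for several places  (GLUE₀ at level `M q²`)

Generalisation of `LSb/Unit/Glue.glue_abstract` + `LSb/Unit/Nodes.glue_regAway/glue_chart` to bare
places (helper7's `Norm.Place F κ`: valuation ring + reduction map; so Gauss data and ramified
Gauss data both fit) and to THREE components, in the output shape `Reg.GlueAt` consumed by
helper8's `Reg/Abstract`.

* `glue_pair`      : the power trick for a pair of places `A → B`:  for `h` in the test ring `T`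
                     (`= S ∩ ⋂ O_i`), a lift `f ∈ T` with `red_A f = red_A h`, `red_B f = V (red_A h)`
                     and a unit `Y` with `eⁿ / Y ∈ T` for every `e ∈ T` with `red_A e = 0`:
                     `(red_B h − V (red_A h))ⁿ = red_B Y · red_B g`, `g ∈ T`;
* `glue_pair_value`: at a zero `x_B` of `red_B Y` where reductions of `T` are regular:
                     `V (red_A h)` has value `α` at `x_B`  ⟹  `red_B h` has value `α` at `x_B`;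
* `pow_trick`      : the hypothesis `hpow` from `Norm.IsArch O_A` and `Y⁻¹ ∈ S ∩ O_B ∩ O_C`;
* `glue3`          : two pairs `1 → 2`, `3 → 2`  ⟹  `GlueAt P₁ P₂ P₃ x₁ x₂ x₃ S`;
* `GlueAt.of_mul_pow` : the chart form: `f · w^b ∈ S`, `w` a unit at the triple point
                     (the shape of `ThickCtx.glue` for `f ∈ 𝓛 a b`).
-/
import Mathlib
import Fermat.Agent.LSb.Core.Value
import Fermat.Agent.S36lib.Norm.Place
import Fermat.Agent.S36lib.Reg.Abstract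

set_option autoImplicit false

noncomputable section

namespace Fermat.Agent.S36lib.Reg

open AlgebraicCurve
open Fermat.Agent.LSb (HasValueAt)

/-! ### values: two small complements to `LSb/Core/Value` -/

section Value

variable {K Fk : Type*} [Field K] [Field Fk] [Algebra K Fk] {Q : Place K Fk}

/-- a function congruent to `z` modulo the maximal ideal of `Q` has the same value -/
theorem hasValueAt_of_sub_lt {z z' : Fk} {c : K} (h : HasValueAt Q z c)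
    (h' : Q.adicValuation (z' - z) < 1) : HasValueAt Q z' c := by
  have h0 : HasValueAt Q (z' - z) 0 := by
    unfold HasValueAt
    rwa [map_zero, sub_zero]
  have := h0.add h
  rwa [sub_add_cancel, zero_add] at this

/-- membership in the valuation ring of a place in terms of `adicValuation` -/
theorem adicValuation_le_one_of_mem {z : Fk} (hz : z ∈ Q.toValuationSubring) :
    Q.adicValuation z ≤ 1 := by
  rw [Q.adicValuation_le_one_iff]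
  rcases eq_or_ne z 0 with rfl | h0
  · exact Or.inl rfl
  · exact Or.inr (Fermat.Agent.ProgramR.FF.ord_nonneg_of_mem Q hz)

/-- a nonzero function whose inverse is regular at `Q` cannot have the value `0` -/
theorem ne_zero_of_hasValueAt_of_inv_mem {z : Fk} {c : K} (h : HasValueAt Q z c) (hz : z ≠ 0)
    (hzi : z⁻¹ ∈ Q.toValuationSubring) : c ≠ 0 := by
  rintro rfl
  rcases LSb.hasValueAt_zero_iff.1 h with h0 | h0
  · exact hz h0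
  · have h1 := Fermat.Agent.ProgramR.FF.ord_nonneg_of_mem Q hzi
    rw [Q.ord_inv] at h1
    omega

end Value

variable {F : Type*} [Field F]

/-! ### the power trick for a pair of places -/

section Pair

variable {κA κB : Type*} [Field κA] [Field κB]

/-- **Abstract GLUE for a pair of places** (`LSb.Unit.glue_abstract` on bare places, arbitrary
test ring `T`). -/
theorem glue_pair (PA : Norm.Place F κA) (PB : Norm.Place F κB) (T : Subring F)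
    (hTA : ∀ f ∈ T, f ∈ PA.O) (hTB : ∀ f ∈ T, f ∈ PB.O) (V : κA →+* κB)
    (hlift : ∀ h ∈ T, ∃ f ∈ T, PA.redF f = PA.redF h ∧ PB.redF f = V (PA.redF h))
    {Y : F} (hY0 : Y ≠ 0) (hYB : Y ∈ PB.O)
    (hpow : ∀ e ∈ T, PA.redF e = 0 → ∃ n : ℕ, e ^ n * Y⁻¹ ∈ T)
    {h : F} (hh : h ∈ T) :
    ∃ (n : ℕ) (g : F), g ∈ T ∧
      (PB.redF h - V (PA.redF h)) ^ n = PB.redF Y * PB.redF g := by
  obtain ⟨f, hf, hfA, hfB⟩ := hlift h hh
  set e : F := h - f with he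
  have heT : e ∈ T := T.sub_mem hh hf
  have hredA : PA.redF e = 0 := by
    rw [he, PA.redF_sub (hTA h hh) (hTA f hf), hfA, sub_self]
  have hredB : PB.redF e = PB.redF h - V (PA.redF h) := by
    rw [he, PB.redF_sub (hTB h hh) (hTB f hf), hfB]
  obtain ⟨n, hn⟩ := hpow e heT hredA
  refine ⟨n, e ^ n * Y⁻¹, hn, ?_⟩
  have hmul : e ^ n = Y * (e ^ n * Y⁻¹) := by
    rw [mul_comm (e ^ n), ← mul_assoc, mul_inv_cancel₀ hY0, one_mul]
  rw [← hredB, ← PB.redF_pow (hTB e heT), ← PB.redF_mul hYB (hTB _ hn), ← hmul]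

variable {k : Type*} [Field k] [Algebra k κB]

/-- **value form**: at a zero `x_B` of `red_B Y` at which the reductions of the test ring are
regular, `red_B h` and `V (red_A h)` have the same value. -/
theorem glue_pair_value (PA : Norm.Place F κA) (PB : Norm.Place F κB) (T : Subring F)
    (hTA : ∀ f ∈ T, f ∈ PA.O) (hTB : ∀ f ∈ T, f ∈ PB.O) (V : κA →+* κB)
    (hlift : ∀ h ∈ T, ∃ f ∈ T, PA.redF f = PA.redF h ∧ PB.redF f = V (PA.redF h))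
    {Y : F} (hY0 : Y ≠ 0) (hYB : Y ∈ PB.O)
    (hpow : ∀ e ∈ T, PA.redF e = 0 → ∃ n : ℕ, e ^ n * Y⁻¹ ∈ T)
    (xB : Place k κB) (hreg : ∀ f ∈ T, PB.redF f ∈ xB.toValuationSubring)
    (hH : xB.adicValuation (PB.redF Y) < 1)
    {h : F} (hh : h ∈ T) {α : k} (hα : HasValueAt xB (V (PA.redF h)) α) :
    HasValueAt xB (PB.redF h) α := by
  obtain ⟨n, g, hg, hpw⟩ := glue_pair PA PB T hTA hTB V hlift hY0 hYB hpow hh
  refine hasValueAt_of_sub_lt hα ?_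
  have h1 : xB.adicValuation ((PB.redF h - V (PA.redF h)) ^ n) < 1 := by
    rw [hpw, map_mul]
    calc xB.adicValuation (PB.redF Y) * xB.adicValuation (PB.redF g)
        ≤ xB.adicValuation (PB.redF Y) * 1 :=
          mul_le_mul_right (adicValuation_le_one_of_mem (hreg g hg)) _
      _ < 1 := by rw [mul_one]; exact hH
  by_contra hge
  rw [not_lt] at hge
  rw [map_pow] at h1
  exact absurd h1 (not_lt.mpr (one_le_pow₀ hge))

end Pair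

/-! ### the power-trick hypothesis from rank one -/

section PowTrick

variable {κA : Type*} [Field κA]

/-- if `O_A` has rank one, `e ∈ O_A` has zero reduction and `Y ≠ 0`, then `eⁿ / Y ∈ O_A` for
some `n` -/
theorem exists_pow_mul_inv_mem (PA : Norm.Place F κA) (harch : Norm.IsArch PA.O) {e : F}
    (he : e ∈ PA.O) (hred : PA.redF e = 0) (Y : F) : ∃ n : ℕ, e ^ n * Y⁻¹ ∈ PA.O := by
  have hlt : PA.O.valuation e < 1 := (PA.redF_eq_zero_iff he).1 hred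
  obtain ⟨n, hn⟩ := harch e hlt Y⁻¹
  exact ⟨n, (PA.O.valuation_le_one_iff _).1 hn⟩

/-- **the hypothesis `hpow` of `glue_pair`** for the test ring `T = S ⊓ O_A ⊓ O'`, where `O'` is
any subring (the intersection of the other valuation rings) containing `Y⁻¹`. -/
theorem pow_trick (PA : Norm.Place F κA) (harch : Norm.IsArch PA.O) (S O' : Subring F) {Y : F}
    (hYS : Y⁻¹ ∈ S) (hYO' : Y⁻¹ ∈ O') :
    ∀ e ∈ S ⊓ PA.O.toSubring ⊓ O', PA.redF e = 0 →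
      ∃ n : ℕ, e ^ n * Y⁻¹ ∈ S ⊓ PA.O.toSubring ⊓ O' := by
  intro e he hred
  rw [Subring.mem_inf, Subring.mem_inf] at he
  obtain ⟨⟨heS, heA⟩, heO'⟩ := he
  obtain ⟨n, hn⟩ := exists_pow_mul_inv_mem PA harch heA hred Y
  refine ⟨n, ?_⟩
  rw [Subring.mem_inf, Subring.mem_inf]
  exact ⟨⟨S.mul_mem (S.pow_mem heS n) hYS, hn⟩, O'.mul_mem (O'.pow_mem heO' n) hYO'⟩

end PowTrick

/-! ### three components -/

section Three

variable {k : Type*} [Field k]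
variable {κ₁ κ₂ κ₃ : Type*} [Field κ₁] [Field κ₂] [Field κ₃]
variable [Algebra k κ₁] [Algebra k κ₂] [Algebra k κ₃]

/-- the test ring `S ∩ O₁ ∩ O₂ ∩ O₃` -/
def ball (S : Subring F) (P₁ : Norm.Place F κ₁) (P₂ : Norm.Place F κ₂) (P₃ : Norm.Place F κ₃) :
    Subring F :=
  S ⊓ P₁.O.toSubring ⊓ P₂.O.toSubring ⊓ P₃.O.toSubring

theorem mem_ball {S : Subring F} {P₁ : Norm.Place F κ₁} {P₂ : Norm.Place F κ₂}
    {P₃ : Norm.Place F κ₃} {f : F} :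
    f ∈ ball S P₁ P₂ P₃ ↔ f ∈ S ∧ f ∈ P₁.O ∧ f ∈ P₂.O ∧ f ∈ P₃.O := by
  rw [ball, Subring.mem_inf, Subring.mem_inf, Subring.mem_inf]
  constructor
  · rintro ⟨⟨⟨h0, h1⟩, h2⟩, h3⟩
    exact ⟨h0, h1, h2, h3⟩
  · rintro ⟨h0, h1, h2, h3⟩
    exact ⟨⟨⟨h0, h1⟩, h2⟩, h3⟩

/-- `hpow` for the pair `1 → 2` inside the ball -/
theorem pow_trick₁ (S : Subring F) (P₁ : Norm.Place F κ₁) (P₂ : Norm.Place F κ₂)
    (P₃ : Norm.Place F κ₃) (harch : Norm.IsArch P₁.O) {Y : F} (hYS : Y⁻¹ ∈ S)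
    (hY2 : Y⁻¹ ∈ P₂.O) (hY3 : Y⁻¹ ∈ P₃.O) :
    ∀ e ∈ ball S P₁ P₂ P₃, P₁.redF e = 0 → ∃ n : ℕ, e ^ n * Y⁻¹ ∈ ball S P₁ P₂ P₃ := by
  intro e he hred
  obtain ⟨h0, h1, h2, h3⟩ := mem_ball.1 he
  obtain ⟨n, hn⟩ := exists_pow_mul_inv_mem P₁ harch h1 hred Y
  exact ⟨n, mem_ball.2 ⟨S.mul_mem (S.pow_mem h0 n) hYS, hn,
    P₂.O.mul_mem _ _ (P₂.O.pow_mem h2 n) hY2, P₃.O.mul_mem _ _ (P₃.O.pow_mem h3 n) hY3⟩⟩

/-- `hpow` for the pair `3 → 2` inside the ball -/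
theorem pow_trick₃ (S : Subring F) (P₁ : Norm.Place F κ₁) (P₂ : Norm.Place F κ₂)
    (P₃ : Norm.Place F κ₃) (harch : Norm.IsArch P₃.O) {Y : F} (hYS : Y⁻¹ ∈ S)
    (hY1 : Y⁻¹ ∈ P₁.O) (hY2 : Y⁻¹ ∈ P₂.O) :
    ∀ e ∈ ball S P₁ P₂ P₃, P₃.redF e = 0 → ∃ n : ℕ, e ^ n * Y⁻¹ ∈ ball S P₁ P₂ P₃ := by
  intro e he hred
  obtain ⟨h0, h1, h2, h3⟩ := mem_ball.1 he
  obtain ⟨n, hn⟩ := exists_pow_mul_inv_mem P₃ harch h3 hred Y
  exact ⟨n, mem_ball.2 ⟨S.mul_mem (S.pow_mem h0 n) hYS,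
    P₁.O.mul_mem _ _ (P₁.O.pow_mem h1 n) hY1, P₂.O.mul_mem _ _ (P₂.O.pow_mem h2 n) hY2, hn⟩⟩

/-- **GLUE at a triple point** from the two pairs `1 → 2` (unit `Y₁`, `v = (+,0,0)`) and `3 → 2`
(unit `Y₃`, `v = (0,0,+)`).

* `V₁₂ : κ₁ →+* κ₂`, `V₃₂ : κ₃ →+* κ₂` are the maps through which the lifts are seen on the middle
  component (identities in the application) and `hx₁₂`, `hx₃₂` say that `x₁`, `x₃` are the images of
  `x₂` (`x₁ = x₂ ∘ V₁₂`);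
* `hlift₁₂` / `hlift₃₂`: every `h` in the ball has a lift `f` in the ball with
  `red₁ f = red₁ h`, `red₂ f = V₁₂ (red₁ h)` (resp. `red₃ f = red₃ h`, `red₂ f = V₃₂ (red₃ h)`): the
  pull-backs `(αα)^* g₀`, `(ββ)^* g₀` of level-`M` lifts `g₀`;
* `hreg_i`: the reductions of the ball are regular at the triple point (CHART);
* `Y₁`, `Y₃`: units whose reductions on the middle component vanish at `x₂`. -/
theorem glue3 (S : Subring F) (P₁ : Norm.Place F κ₁) (P₂ : Norm.Place F κ₂) (P₃ : Norm.Place F κ₃)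
    (x₁ : Place k κ₁) (x₂ : Place k κ₂) (x₃ : Place k κ₃) (hd₁ : x₁.deg = 1) (hd₃ : x₃.deg = 1)
    (hreg₁ : ∀ f ∈ ball S P₁ P₂ P₃, P₁.redF f ∈ x₁.toValuationSubring)
    (hreg₂ : ∀ f ∈ ball S P₁ P₂ P₃, P₂.redF f ∈ x₂.toValuationSubring)
    (hreg₃ : ∀ f ∈ ball S P₁ P₂ P₃, P₃.redF f ∈ x₃.toValuationSubring)
    (V₁₂ : κ₁ →+* κ₂) (V₃₂ : κ₃ →+* κ₂)
    (hx₁₂ : ∀ (z : κ₁) (α : k), HasValueAt x₁ z α → HasValueAt x₂ (V₁₂ z) α)
    (hx₃₂ : ∀ (z : κ₃) (α : k), HasValueAt x₃ z α → HasValueAt x₂ (V₃₂ z) α)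
    (hlift₁₂ : ∀ h ∈ ball S P₁ P₂ P₃, ∃ f ∈ ball S P₁ P₂ P₃,
      P₁.redF f = P₁.redF h ∧ P₂.redF f = V₁₂ (P₁.redF h))
    (hlift₃₂ : ∀ h ∈ ball S P₁ P₂ P₃, ∃ f ∈ ball S P₁ P₂ P₃,
      P₃.redF f = P₃.redF h ∧ P₂.redF f = V₃₂ (P₃.redF h))
    {Y₁ Y₃ : F} (hY₁0 : Y₁ ≠ 0) (hY₃0 : Y₃ ≠ 0) (hY₁2 : Y₁ ∈ P₂.O) (hY₃2 : Y₃ ∈ P₂.O)
    (hpow₁ : ∀ e ∈ ball S P₁ P₂ P₃, P₁.redF e = 0 → ∃ n : ℕ, e ^ n * Y₁⁻¹ ∈ ball S P₁ P₂ P₃)
    (hpow₃ : ∀ e ∈ ball S P₁ P₂ P₃, P₃.redF e = 0 → ∃ n : ℕ, e ^ n * Y₃⁻¹ ∈ ball S P₁ P₂ P₃)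
    (hH₁ : x₂.adicValuation (P₂.redF Y₁) < 1) (hH₃ : x₂.adicValuation (P₂.redF Y₃) < 1) :
    GlueAt P₁ P₂ P₃ x₁ x₂ x₃ (S : Set F) := by
  intro f hfS hf1 hf2 hf3
  have hf : f ∈ ball S P₁ P₂ P₃ := mem_ball.2 ⟨hfS, hf1, hf2, hf3⟩
  have hT1 : ∀ f ∈ ball S P₁ P₂ P₃, f ∈ P₁.O := fun f hf => (mem_ball.1 hf).2.1
  have hT2 : ∀ f ∈ ball S P₁ P₂ P₃, f ∈ P₂.O := fun f hf => (mem_ball.1 hf).2.2.1
  have hT3 : ∀ f ∈ ball S P₁ P₂ P₃, f ∈ P₃.O := fun f hf => (mem_ball.1 hf).2.2.2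
  obtain ⟨α, hα⟩ := LSb.exists_hasValueAt hd₁ (adicValuation_le_one_of_mem (hreg₁ f hf))
  obtain ⟨β, hβ⟩ := LSb.exists_hasValueAt hd₃ (adicValuation_le_one_of_mem (hreg₃ f hf))
  have h2α : HasValueAt x₂ (P₂.redF f) α :=
    glue_pair_value P₁ P₂ (ball S P₁ P₂ P₃) hT1 hT2 V₁₂ hlift₁₂ hY₁0 hY₁2 hpow₁ x₂ hreg₂ hH₁ hf
      (hx₁₂ _ _ hα)
  have h2β : HasValueAt x₂ (P₂.redF f) β :=
    glue_pair_value P₃ P₂ (ball S P₁ P₂ P₃) hT3 hT2 V₃₂ hlift₃₂ hY₃0 hY₃2 hpow₃ x₂ hreg₂ hH₃ hf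
      (hx₃₂ _ _ hβ)
  have hαβ : α = β := h2α.unique h2β
  exact ⟨α, hα, h2α, hαβ ▸ hβ⟩

/-- **chart form of GLUE**: if `f · w^b ∈ S` for a function `w ∈ S ∩ O₁ ∩ O₂ ∩ O₃` which is a unit
at the triple point (`red₂ w ≠ 0`, `(red₂ w)⁻¹` regular at `x₂`), then the three reductions of
`f ∈ O₁ ∩ O₂ ∩ O₃` have a common value (the shape of `ThickCtx.glue` for `f ∈ 𝓛 a b`,
`w = j − c₀`). -/
theorem GlueAt.of_mul_pow {S : Subring F} {P₁ : Norm.Place F κ₁} {P₂ : Norm.Place F κ₂}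
    {P₃ : Norm.Place F κ₃} {x₁ : Place k κ₁} {x₂ : Place k κ₂} {x₃ : Place k κ₃}
    (hG : GlueAt P₁ P₂ P₃ x₁ x₂ x₃ (S : Set F)) {w : F} (hwS : w ∈ S) (hw1 : w ∈ P₁.O)
    (hw2 : w ∈ P₂.O) (hw3 : w ∈ P₃.O) (hwred : P₂.redF w ≠ 0)
    (hx₂w : (P₂.redF w)⁻¹ ∈ x₂.toValuationSubring) {f : F} (b : ℕ) (hf : f * w ^ b ∈ S)
    (hf1 : f ∈ P₁.O) (hf2 : f ∈ P₂.O) (hf3 : f ∈ P₃.O) :
    ∃ α : k, HasValueAt x₁ (P₁.redF f) α ∧ HasValueAt x₂ (P₂.redF f) α ∧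
      HasValueAt x₃ (P₃.redF f) α := by
  obtain ⟨α', hα1, hα2, hα3⟩ := hG (f * w ^ b) hf (P₁.O.mul_mem _ _ hf1 (P₁.O.pow_mem hw1 b))
    (P₂.O.mul_mem _ _ hf2 (P₂.O.pow_mem hw2 b)) (P₃.O.mul_mem _ _ hf3 (P₃.O.pow_mem hw3 b))
  obtain ⟨β, hβ1, hβ2, hβ3⟩ := hG w hwS hw1 hw2 hw3
  have hβ0 : β ≠ 0 := ne_zero_of_hasValueAt_of_inv_mem hβ2 hwred hx₂w
  have hwred1 : P₁.redF w ≠ 0 := hβ1.ne_zero hβ0
  have hwred3 : P₃.redF w ≠ 0 := hβ3.ne_zero hβ0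
  refine ⟨α' * (β ^ b)⁻¹, ?_, ?_, ?_⟩
  · have h1 : P₁.redF f = P₁.redF (f * w ^ b) * (P₁.redF w ^ b)⁻¹ := by
      rw [P₁.redF_mul hf1 (P₁.O.pow_mem hw1 b), P₁.redF_pow hw1, mul_assoc,
        mul_inv_cancel₀ (pow_ne_zero b hwred1), mul_one]
    rw [h1]
    exact hα1.mul ((hβ1.pow b).inv (pow_ne_zero b hβ0))
  · have h1 : P₂.redF f = P₂.redF (f * w ^ b) * (P₂.redF w ^ b)⁻¹ := by
      rw [P₂.redF_mul hf2 (P₂.O.pow_mem hw2 b), P₂.redF_pow hw2, mul_assoc,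
        mul_inv_cancel₀ (pow_ne_zero b hwred), mul_one]
    rw [h1]
    exact hα2.mul ((hβ2.pow b).inv (pow_ne_zero b hβ0))
  · have h1 : P₃.redF f = P₃.redF (f * w ^ b) * (P₃.redF w ^ b)⁻¹ := by
      rw [P₃.redF_mul hf3 (P₃.O.pow_mem hw3 b), P₃.redF_pow hw3, mul_assoc,
        mul_inv_cancel₀ (pow_ne_zero b hwred3), mul_one]
    rw [h1]
    exact hα3.mul ((hβ3.pow b).inv (pow_ne_zero b hβ0))

end Three

end Fermat.Agent.S36lib.Reg
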