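/-
S36lib / Reg / Inst  (helper8)  --  brick B4 (REG): assembly

**From the ten rows to `ThickCtx`** (generic in the thick datum), and the field `(T1)` of the
modular instance.

* `disc_of_isUnif`, `disc_pow_of_isUnif` : the discreteness inputs `disc₁ disc₃ disc₂` of
  `Reg.Rows.regData` from `Norm.IsUnif` (+ the ramification relation);
* `regData_of_rows` : `RegData` at every triple point of a thick datum `D` (three equal residue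
  fields) for the test ring `S = Fin.cuspRing hS` (helper3), from the rows, the level-`M` functions
  `τ τ″`, the two units `X Y` of level `M q` and the orders at the triple points;
* `exists_thickCtx_of_rows` : with `B : ThickBase D g g₁ g₂ g₃` and `ϖ₀ ^ e = π · unit` for the old
  uniformizer: **`ThickCtx (thickWithUnif D (β₂ β₁ τ − α₂ α₁ τ) h0 hv) g g₁ g₂ g₃`**.
-/
import Mathlib
import Fermat.Agent.S36lib.Reg.Rows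
import Fermat.Agent.S36lib.Reg.Thick
import Fermat.Agent.S36lib.Fin.GlueField
import Fermat.Agent.S36lib.Norm.Along

set_option autoImplicit false
set_option linter.unusedSectionVars false
set_option linter.unusedVariables false

noncomputable section

namespace Fermat.Agent.S36lib.Reg

open AlgebraicCurve
open Fermat.Agent.LSb (HasValueAt)
open Fermat.Agent.S36lib.Thick Fermat.Agent.S36lib.Norm Fermat.Agent.S36lib.Fin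

/-! ### discreteness from `IsUnif` -/

section Disc

variable {F κ : Type*} [Field F] [Field κ]

/-- elements of the maximal ideal are divisible by a uniformizer -/
theorem disc_of_isUnif (P : Norm.Place F κ) {π : F} (h : IsUnif P.O π) :
    ∀ f ∈ P.O, P.redF f = 0 → f * π⁻¹ ∈ P.O := by
  intro f hf hr
  have hlt : P.O.valuation f < 1 := (P.redF_eq_zero_iff hf).1 hr
  have hle := h.gen f hlt
  have hπ0 : P.O.valuation π ≠ 0 := (Valuation.ne_zero_iff _).2 h.ne_zero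
  rw [← P.O.valuation_le_one_iff, map_mul, map_inv₀]
  exact (mul_inv_le_iff₀ (zero_lt_iff.2 hπ0)).2 (by rwa [one_mul])

/-- `e`-th powers of elements of the maximal ideal are divisible by `π` when `v(π) = v(ϖ)^e` -/
theorem disc_pow_of_isUnif (P : Norm.Place F κ) {π ϖ : F} {e : ℕ} (h : IsUnif P.O ϖ)
    (hram : P.O.valuation π = P.O.valuation ϖ ^ e) :
    ∀ f ∈ P.O, P.redF f = 0 → f ^ e * π⁻¹ ∈ P.O := by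
  intro f hf hr
  have hlt : P.O.valuation f < 1 := (P.redF_eq_zero_iff hf).1 hr
  have hle := h.gen f hlt
  have hϖ0 : P.O.valuation ϖ ≠ 0 := (Valuation.ne_zero_iff _).2 h.ne_zero
  have hπ0 : P.O.valuation π ≠ 0 := by rw [hram]; exact pow_ne_zero e hϖ0
  rw [← P.O.valuation_le_one_iff, map_mul, map_inv₀, map_pow]
  refine (mul_inv_le_iff₀ (zero_lt_iff.2 hπ0)).2 ?_
  rw [one_mul, hram]
  exact pow_le_pow_left₀ zero_le hle e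

end Disc

/-! ### from the rows to `ThickCtx` -/

section Generic

variable {K : Type*} [Field K] {R : ValuationSubring K}
variable {F : Type*} [Field F] [Algebra K F]
variable {κ : Type*} [Field κ] [Algebra (IsLocalRing.ResidueField R) κ]
variable {F' G : Type*} [Field F'] [Field G]
variable {α₁ β₁ : F' →+* G} {α₂ β₂ : G →+* F} {V : κ →+* κ}
variable {WM : Norm.Place F' κ} {W₁ W₂ : Norm.Place G κ}
variable {D : ThickDatum R F κ κ κ}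

/-- **`RegData` at every triple point** for the cusp ring `S = ⋃ₐ 𝓛 a 0` -/
theorem regData_of_rows (hS : CuspRingHyp D)
    (T : Rows α₁ β₁ α₂ β₂ V WM W₁ W₂ (pl₁ D) (pl₂ D) (pl₃ D))
    {τ τ'' : F'} {π₀ X Y : G} {H : κ} {m : ℕ}
    (hτ : τ ∈ WM.O) (hτ'' : τ'' ∈ WM.O) (hred : WM.redF τ'' = V (WM.redF τ))
    (hτ₀S : α₂ (α₁ τ) ∈ cuspRing hS) (hτ₂S : β₂ (β₁ τ) ∈ cuspRing hS)
    (hσ₁S : α₂ (β₁ τ'') ∈ cuspRing hS)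
    (disc₁ : ∀ f ∈ (pl₁ D).O, (pl₁ D).redF f = 0 → f * (algebraMap K F D.π)⁻¹ ∈ (pl₁ D).O)
    (disc₃ : ∀ f ∈ (pl₃ D).O, (pl₃ D).redF f = 0 → f * (algebraMap K F D.π)⁻¹ ∈ (pl₃ D).O)
    (disc₂ : ∀ f ∈ (pl₂ D).O, (pl₂ D).redF f = 0 →
      f ^ D.e * (algebraMap K F D.π)⁻¹ ∈ (pl₂ D).O)
    (hG : ∀ c, GlueAt (pl₁ D) (pl₂ D) (pl₃ D) (D.x₁ c) (D.x₂ c) (D.x₃ c)
      (cuspRing hS : Set F))
    (hd₁ : ∀ c, (D.x₁ c).deg = 1) (hd₃ : ∀ c, (D.x₃ c).deg = 1)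
    (hm : 0 < m) (hπ₀ : π₀ ≠ 0) (hαπ : α₂ π₀ = algebraMap K F D.π)
    (hβπ : β₂ π₀ = algebraMap K F D.π) (hπS : (algebraMap K F D.π)⁻¹ ∈ cuspRing hS)
    (hXY : X * Y = π₀ ^ m) (hY₁ : W₁.redF (Y * (π₀ ^ m)⁻¹) = H⁻¹) (hY₂ : W₂.redF Y = H)
    (hH : H ≠ 0)
    (hE₁S : β₂ Y ∈ cuspRing hS) (hE₁S' : (β₂ Y)⁻¹ ∈ cuspRing hS)
    (hE₃S : α₂ X ∈ cuspRing hS) (hE₃S' : (α₂ X)⁻¹ ∈ cuspRing hS)
    (hoH₁ : ∀ c, (D.x₁ c).ord H = m) (hoH₃ : ∀ c, (D.x₃ c).ord H = m)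
    (hoVH : ∀ c, (D.x₁ c).ord (V H) = ((D.e : ℤ) + 1) * m)
    (hτ₁ : ∀ c, (D.x₁ c).ord (WM.redF τ) = 1) (hτ₃ : ∀ c, (D.x₃ c).ord (WM.redF τ) = 1)
    (hω₁ : ∀ c, 0 < (D.x₁ c).ord (V (V (WM.redF τ))) → 2 ≤ (D.x₁ c).ord (V (V (WM.redF τ))))
    (hω₃ : ∀ c, 0 < (D.x₃ c).ord (V (V (WM.redF τ))) → 2 ≤ (D.x₃ c).ord (V (V (WM.redF τ))))
    (c : Fin D.s) :
    RegData (k := IsLocalRing.ResidueField R) (pl₁ D) (pl₂ D) (pl₃ D) (D.x₁ c) (D.x₂ c) (D.x₃ c)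
      (cuspRing hS) (algebraMap K F D.π) D.e m (β₂ Y)
      (algebraMap K F D.π ^ m * (β₂ Y)⁻¹ * (α₂ X)⁻¹) (α₂ X)
      (β₂ (β₁ τ) - α₂ (β₁ τ'')) (α₂ (α₁ τ) - α₂ (β₁ τ'')) (β₂ (β₁ τ) - α₂ (α₁ τ)) :=
  T.regData hτ hτ'' hred hτ₀S hτ₂S hσ₁S disc₁ disc₃ disc₂ (hG c) (hd₁ c) (hd₃ c) hm hπ₀ hαπ hβπ
    hπS hXY hY₁ hY₂ hH hE₁S hE₁S' hE₃S hE₃S' (hoH₁ c) (hoH₃ c) (hoVH c) (hτ₁ c) (hτ₃ c) (hω₁ c)
    (hω₃ c)

/-- **(T1), generic form**: the base fields, the rows and the data of (REG) give `ThickCtx` for the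
datum with the uniformizer `ϖ = β₂ β₁ τ − α₂ α₁ τ`. -/
theorem exists_thickCtx_of_rows {g g₁ g₂ g₃ : ℕ} (B : ThickBase D g g₁ g₂ g₃)
    (hS : CuspRingHyp D)
    (T : Rows α₁ β₁ α₂ β₂ V WM W₁ W₂ (pl₁ D) (pl₂ D) (pl₃ D))
    (h0 : D.V₂.unif ≠ 0)
    (hpow : ∃ u : D.V₂.Oˣ, D.V₂.unif ^ D.e = algebraMap K F D.π * ((u : D.V₂.O) : F))
    {τ τ'' : F'} {π₀ X Y : G} {H : κ} {m : ℕ}
    (hτ : τ ∈ WM.O) (hτ'' : τ'' ∈ WM.O) (hred : WM.redF τ'' = V (WM.redF τ))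
    (hτ₀S : α₂ (α₁ τ) ∈ cuspRing hS) (hτ₂S : β₂ (β₁ τ) ∈ cuspRing hS)
    (hσ₁S : α₂ (β₁ τ'') ∈ cuspRing hS)
    (disc₁ : ∀ f ∈ (pl₁ D).O, (pl₁ D).redF f = 0 → f * (algebraMap K F D.π)⁻¹ ∈ (pl₁ D).O)
    (disc₃ : ∀ f ∈ (pl₃ D).O, (pl₃ D).redF f = 0 → f * (algebraMap K F D.π)⁻¹ ∈ (pl₃ D).O)
    (disc₂ : ∀ f ∈ (pl₂ D).O, (pl₂ D).redF f = 0 →
      f ^ D.e * (algebraMap K F D.π)⁻¹ ∈ (pl₂ D).O)
    (hG : ∀ c, GlueAt (pl₁ D) (pl₂ D) (pl₃ D) (D.x₁ c) (D.x₂ c) (D.x₃ c)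
      (cuspRing hS : Set F))
    (hd₁ : ∀ c, (D.x₁ c).deg = 1) (hd₃ : ∀ c, (D.x₃ c).deg = 1)
    (hm : 0 < m) (hπ₀ : π₀ ≠ 0) (hαπ : α₂ π₀ = algebraMap K F D.π)
    (hβπ : β₂ π₀ = algebraMap K F D.π) (hπS : (algebraMap K F D.π)⁻¹ ∈ cuspRing hS)
    (hXY : X * Y = π₀ ^ m) (hY₁ : W₁.redF (Y * (π₀ ^ m)⁻¹) = H⁻¹) (hY₂ : W₂.redF Y = H)
    (hH : H ≠ 0)
    (hE₁S : β₂ Y ∈ cuspRing hS) (hE₁S' : (β₂ Y)⁻¹ ∈ cuspRing hS)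
    (hE₃S : α₂ X ∈ cuspRing hS) (hE₃S' : (α₂ X)⁻¹ ∈ cuspRing hS)
    (hoH₁ : ∀ c, (D.x₁ c).ord H = m) (hoH₃ : ∀ c, (D.x₃ c).ord H = m)
    (hoVH : ∀ c, (D.x₁ c).ord (V H) = ((D.e : ℤ) + 1) * m)
    (hτ₁ : ∀ c, (D.x₁ c).ord (WM.redF τ) = 1) (hτ₃ : ∀ c, (D.x₃ c).ord (WM.redF τ) = 1)
    (hω₁ : ∀ c, 0 < (D.x₁ c).ord (V (V (WM.redF τ))) → 2 ≤ (D.x₁ c).ord (V (V (WM.redF τ))))
    (hω₃ : ∀ c, 0 < (D.x₃ c).ord (V (V (WM.redF τ))) → 2 ≤ (D.x₃ c).ord (V (V (WM.redF τ)))) :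
    ∃ hv : D.V₂.O.valuation (β₂ (β₁ τ) - α₂ (α₁ τ)) = D.V₂.O.valuation D.V₂.unif,
      ThickCtx (thickWithUnif D (β₂ (β₁ τ) - α₂ (α₁ τ)) h0 hv) g g₁ g₂ g₃ := by
  have h := regData_of_rows hS T hτ hτ'' hred hτ₀S hτ₂S hσ₁S disc₁ disc₃ disc₂ hG hd₁ hd₃ hm hπ₀
    hαπ hβπ hπS hXY hY₁ hY₂ hH hE₁S hE₁S' hE₃S hE₃S' hoH₁ hoH₃ hoVH hτ₁ hτ₃ hω₁ hω₃
  have c₀ : Fin D.s := ⟨0, B.s_pos⟩
  obtain ⟨a₁, ha₁⟩ := mem_cuspRing.1 (h c₀).f₁_mem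
  obtain ⟨a₃, ha₃⟩ := mem_cuspRing.1 (h c₀).f₃_mem
  obtain ⟨aϖ, haϖ⟩ := mem_cuspRing.1 (h c₀).ϖ_mem
  exact exists_thickCtx_of_regData B h0 hpow (a := max a₁ a₃) (b := 0)
    (f₁ := fun _ => β₂ (β₁ τ) - α₂ (β₁ τ'')) (f₃ := fun _ => α₂ (α₁ τ) - α₂ (β₁ τ'')) h
    (fun _ => hS.mono (le_max_left a₁ a₃) ha₁) (fun _ => hS.mono (le_max_right a₁ a₃) ha₃)
    ⟨aϖ, 0, haϖ⟩

end Generic

end Fermat.Agent.S36lib.Reg
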