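/-
S36lib / Reg / ModInst  (helper8)  --  brick B4 (REG): the modular instance, field (T1)

`D₀ = Inst.modThick M q A hqM hA V₁ V₂ V₃` (helper5), `I = HI A`, the tower
`fixF M I →(α₁ = alphaFixM, β₁ = betaFixM) fixF (M q) I ⇉(α₂ = alphaFix, β₂ = betaFix) fixF (M q²) I`.

* `exists_thickCtx_modThick` : for ANY `K`-rational data `V₁ V₂ V₃` with a tower record
  `T : Mid.TowerData …` and the ten rows `Rw : Reg.Rows …` (`Mid/OverM`), the base fields
  `B : ThickBase D₀ g g₁ g₂ g₃`, the old uniformizer relation `hpow`, and the inputs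
  (B1) `τ τ″`, (B2) `X Y H`, (B3) orders at the triple points, (B5) memberships in the cusp ring,
  (C) (GLUE):
  **`∃ hv, ThickCtx (thickWithUnif D₀ (β₂ β₁ τ − α₂ α₁ τ) h0 hv) g g₁ g₂ g₃`**.
-/
import Mathlib
import Fermat.Agent.S36lib.Reg.Inst
import Fermat.Agent.S36lib.Inst.Datum
import Fermat.Agent.S36lib.Mid.OverM
import Fermat.Agent.S36lib.Desc2.LiftM
import Fermat.Agent.S36lib.Val.Triple

set_option autoImplicit false
set_option linter.unusedSectionVars false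
set_option linter.unusedVariables false

noncomputable section

namespace Fermat.Agent.S36lib.Reg

open AlgebraicCurve ModularCurve IsLocalRing
open Fermat.Agent.S18lib Fermat.Agent.LSb
open Fermat.Agent.S36lib.Thick Fermat.Agent.S36lib.Norm Fermat.Agent.S36lib.Fin
open Fermat.Agent.S36lib.Desc Fermat.Agent.S36lib.Desc2 Fermat.Agent.S36lib.Inst
open Fermat.Agent.S36lib.Mid Fermat.Agent.S36lib.Val

local notation "Qb" => AlgebraicClosure ℚ

section Modular

variable {M q : ℕ} [NeZero M] [NeZero q] [hq : Fact q.Prime] {A : ValuationSubring Qb}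
  {hqM : ¬ q ∣ M} (hA : A.LiesOverPrime q)
variable [HasPrincipalDivisors (ResidueField (Wfix A)) (FRes A M)]
variable {V₁ V₃ : GaussDatum (Wfix A) (FTop M q A) (FRes A M)}
  {V₂ : RamGaussDatum (Wfix A) (FTop M q A) (FRes A M)}
variable {WM' : GaussDatum (Wfix A) (fixF M (HI A)) (FRes A M)}
  {W₁' W₂' : GaussDatum (Wfix A) (FMid M q A) (FRes A M)}

/-- **(T1) for the modular thick datum**, from the tower record, the rows and the inputs
(B1) (B2) (B3) (B5) (C). -/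
theorem exists_thickCtx_modThick {g g₁ g₂ g₃ : ℕ}
    (T : TowerData (alphaFixM M q (HI A)) (betaFixM M q (HI A)) (alphaFix M q (HI A))
      (Unit.VqR (M := M) hA) q (q - 1) (ofGauss WM') (ofGauss W₁') (ofGauss W₂') (ofGauss V₁)
      (ofRamGauss V₂) (ofGauss V₃) (qFix A q M) (qFix A q (M * q)) (qFix A q (M * q * q))
      V₂.unif (qFix A q (M * q * q)))
    (Rw : Rows (alphaFixM M q (HI A)) (betaFixM M q (HI A)) (alphaFix M q (HI A))
      (betaFix M q (HI A)) (Unit.VqR (M := M) hA) (ofGauss WM') (ofGauss W₁') (ofGauss W₂')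
      (ofGauss V₁) (ofRamGauss V₂) (ofGauss V₃))
    (B : ThickBase (modThick M q A hqM hA V₁ V₂ V₃) g g₁ g₂ g₃)
    (hS : CuspRingHyp (modThick M q A hqM hA V₁ V₂ V₃))
    (hpow : ∃ u : V₂.Oˣ, V₂.unif ^ (q - 1) =
      algebraMap (Kfix A) (FTop M q A) (qK A q) * ((u : V₂.O) : FTop M q A))
    -- (B1)
    {τ τ'' : fixF M (HI A)} (hτ : τ ∈ WM'.O) (hτ'' : τ'' ∈ WM'.O)
    (hred : WM'.redF τ'' = Unit.VqR (M := M) hA (WM'.redF τ))
    (hτ₁ : ∀ c, (triplePt M q A hqM hA c).ord (WM'.redF τ) = 1)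
    -- (B5), level `M`
    (hτ₀S : alphaFix M q (HI A) (alphaFixM M q (HI A) τ) ∈ cuspRing hS)
    (hτ₂S : betaFix M q (HI A) (betaFixM M q (HI A) τ) ∈ cuspRing hS)
    (hσ₁S : alphaFix M q (HI A) (betaFixM M q (HI A) τ'') ∈ cuspRing hS)
    -- (C)
    (hG : ∀ c, GlueAt (ofGauss V₁) (ofRamGauss V₂) (ofGauss V₃) (triplePt M q A hqM hA c)
      (triplePt M q A hqM hA c) (triplePt M q A hqM hA c) (cuspRing hS : Set (FTop M q A)))
    -- (B3)
    (hd : ∀ c, (triplePt M q A hqM hA c).deg = 1)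
    {m : ℕ} (hm : 0 < m) {H : FRes A M} (hH : H ≠ 0)
    (hoH : ∀ c, (triplePt M q A hqM hA c).ord H = m)
    (hoVH : ∀ c, (triplePt M q A hqM hA c).ord (Unit.VqR (M := M) hA H) =
      (((q - 1 : ℕ) : ℤ) + 1) * m)
    (hω : ∀ c, 0 < (triplePt M q A hqM hA c).ord
        (Unit.VqR (M := M) hA (Unit.VqR (M := M) hA (WM'.redF τ))) →
      2 ≤ (triplePt M q A hqM hA c).ord
        (Unit.VqR (M := M) hA (Unit.VqR (M := M) hA (WM'.redF τ))))
    -- (B2)
    {X Y : FMid M q A} (hXY : X * Y = qFix A q (M * q) ^ m)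
    (hY₁ : W₁'.redF (Y * (qFix A q (M * q) ^ m)⁻¹) = H⁻¹) (hY₂ : W₂'.redF Y = H)
    -- (B5), level `M q`
    (hπS : (qFix A q (M * q * q))⁻¹ ∈ cuspRing hS)
    (hE₁S : betaFix M q (HI A) Y ∈ cuspRing hS) (hE₁S' : (betaFix M q (HI A) Y)⁻¹ ∈ cuspRing hS)
    (hE₃S : alphaFix M q (HI A) X ∈ cuspRing hS)
    (hE₃S' : (alphaFix M q (HI A) X)⁻¹ ∈ cuspRing hS) :
    ∃ hv : V₂.O.valuation (betaFix M q (HI A) (betaFixM M q (HI A) τ) -
        alphaFix M q (HI A) (alphaFixM M q (HI A) τ)) = V₂.O.valuation V₂.unif,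
      ThickCtx (thickWithUnif (modThick M q A hqM hA V₁ V₂ V₃)
        (betaFix M q (HI A) (betaFixM M q (HI A) τ) -
          alphaFix M q (HI A) (alphaFixM M q (HI A) τ)) T.pb.unif.ne_zero hv) g g₁ g₂ g₃ := by
  have hπ₀ : qFix A q (M * q) ≠ 0 := by
    intro h0
    have h1 := T.pa.unif.ne_zero
    have h2 : alphaFix M q (HI A) (qFix A q (M * q)) = qFix A q (M * q * q) :=
      alphaFix_algebraMap M q (HI A) _
    rw [h0, map_zero] at h2
    exact h1 h2.symm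
  have hram : V₂.O.valuation (qFix A q (M * q * q)) = V₂.O.valuation V₂.unif ^ (q - 1) := by
    have h := T.pb.ram
    rwa [alphaFix_algebraMap M q (HI A)] at h
  exact exists_thickCtx_of_rows (D := modThick M q A hqM hA V₁ V₂ V₃) B hS Rw T.pb.unif.ne_zero
    hpow hτ hτ'' hred hτ₀S hτ₂S hσ₁S
    (disc_of_isUnif (ofGauss V₁) T.pa.unif) (disc_of_isUnif (ofGauss V₃) T.pc.unif)
    (disc_pow_of_isUnif (ofRamGauss V₂) T.pb.unif hram) hG hd hd hm hπ₀
    (alphaFix_algebraMap M q (HI A) _) (betaFix_algebraMap M q (HI A) _) hπS hXY hY₁ hY₂ hH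
    hE₁S hE₁S' hE₃S hE₃S' hoH hoH hoVH hτ₁ hτ₁ hω hω

end Modular

/-! ### the concrete triple `(gaussInfK₂, V₂K, gaussZeroK₂)` -/

section Concrete

variable (M q : ℕ) [NeZero M] [NeZero q] [hq : Fact q.Prime] (A : ValuationSubring Qb)
  (hqM : ¬ q ∣ M) (hA : A.LiesOverPrime q)
variable [HasPrincipalDivisors (ResidueField (Wfix A)) (FRes A M)]

/-- the tower record of the concrete triple, for the structure `Inst.instAlgebraResW` -/
theorem towerData_modThickK :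
    TowerData (alphaFixM M q (HI A)) (betaFixM M q (HI A)) (alphaFix M q (HI A))
      (Unit.VqR (M := M) hA) q (q - 1) (ofGauss (gaussMK M A hqM hA))
      (ofGauss (gaussOneK M q A hqM hA)) (ofGauss (gaussTwoK M q A hqM hA))
      (ofGauss (gaussInfK₂ M q A hqM hA)) (ofRamGauss (V₂K M q A hqM hA))
      (ofGauss (gaussZeroK₂ M q A hqM hA)) (qFix A q M) (qFix A q (M * q))
      (qFix A q (M * q * q)) (V₂K M q A hqM hA).unif (qFix A q (M * q * q)) :=
  towerDataK M q A hqM hA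

/-- the ten rows of the concrete triple, for the structure `Inst.instAlgebraResW` -/
theorem rows_modThickK :
    Rows (alphaFixM M q (HI A)) (betaFixM M q (HI A)) (alphaFix M q (HI A))
      (betaFix M q (HI A)) (Unit.VqR (M := M) hA) (ofGauss (gaussMK M A hqM hA))
      (ofGauss (gaussOneK M q A hqM hA)) (ofGauss (gaussTwoK M q A hqM hA))
      (ofGauss (gaussInfK₂ M q A hqM hA)) (ofRamGauss (V₂K M q A hqM hA))
      (ofGauss (gaussZeroK₂ M q A hqM hA)) :=
  rowsK M q A hqM hA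

variable {M q A hqM}

/-- **(T1) for the concrete modular thick datum** `Val.modThickK`, from the inputs
(B1) (B2) (B3) (B5) (C). -/
theorem exists_thickCtx_modThickK {g g₁ g₂ g₃ : ℕ}
    (B : ThickBase (modThickK M q A hqM hA) g g₁ g₂ g₃)
    (hS : CuspRingHyp (modThickK M q A hqM hA))
    -- (B1)
    {τ τ'' : fixF M (HI A)} (hτ : τ ∈ (gaussMK M A hqM hA).O)
    (hτ'' : τ'' ∈ (gaussMK M A hqM hA).O)
    (hred : (gaussMK M A hqM hA).redF τ'' =
      Unit.VqR (M := M) hA ((gaussMK M A hqM hA).redF τ))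
    (hτ₁ : ∀ c, (triplePt M q A hqM hA c).ord ((gaussMK M A hqM hA).redF τ) = 1)
    -- (B5), level `M`
    (hτ₀S : alphaFix M q (HI A) (alphaFixM M q (HI A) τ) ∈ cuspRing hS)
    (hτ₂S : betaFix M q (HI A) (betaFixM M q (HI A) τ) ∈ cuspRing hS)
    (hσ₁S : alphaFix M q (HI A) (betaFixM M q (HI A) τ'') ∈ cuspRing hS)
    -- (C)
    (hG : ∀ c, GlueAt (ofGauss (gaussInfK₂ M q A hqM hA)) (ofRamGauss (V₂K M q A hqM hA))
      (ofGauss (gaussZeroK₂ M q A hqM hA)) (triplePt M q A hqM hA c)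
      (triplePt M q A hqM hA c) (triplePt M q A hqM hA c) (cuspRing hS : Set (FTop M q A)))
    -- (B3)
    (hd : ∀ c, (triplePt M q A hqM hA c).deg = 1)
    {m : ℕ} (hm : 0 < m) {H : FRes A M} (hH : H ≠ 0)
    (hoH : ∀ c, (triplePt M q A hqM hA c).ord H = m)
    (hoVH : ∀ c, (triplePt M q A hqM hA c).ord (Unit.VqR (M := M) hA H) =
      (((q - 1 : ℕ) : ℤ) + 1) * m)
    (hω : ∀ c, 0 < (triplePt M q A hqM hA c).ord
        (Unit.VqR (M := M) hA (Unit.VqR (M := M) hA ((gaussMK M A hqM hA).redF τ))) →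
      2 ≤ (triplePt M q A hqM hA c).ord
        (Unit.VqR (M := M) hA (Unit.VqR (M := M) hA ((gaussMK M A hqM hA).redF τ))))
    -- (B2)
    {X Y : FMid M q A} (hXY : X * Y = qFix A q (M * q) ^ m)
    (hY₁ : (gaussOneK M q A hqM hA).redF (Y * (qFix A q (M * q) ^ m)⁻¹) = H⁻¹)
    (hY₂ : (gaussTwoK M q A hqM hA).redF Y = H)
    -- (B5), level `M q`
    (hπS : (qFix A q (M * q * q))⁻¹ ∈ cuspRing hS)
    (hE₁S : betaFix M q (HI A) Y ∈ cuspRing hS) (hE₁S' : (betaFix M q (HI A) Y)⁻¹ ∈ cuspRing hS)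
    (hE₃S : alphaFix M q (HI A) X ∈ cuspRing hS)
    (hE₃S' : (alphaFix M q (HI A) X)⁻¹ ∈ cuspRing hS) :
    ∃ (h0 : (V₂K M q A hqM hA).unif ≠ 0)
      (hv : (V₂K M q A hqM hA).O.valuation (betaFix M q (HI A) (betaFixM M q (HI A) τ) -
        alphaFix M q (HI A) (alphaFixM M q (HI A) τ)) =
          (V₂K M q A hqM hA).O.valuation (V₂K M q A hqM hA).unif),
      ThickCtx (thickWithUnif (modThickK M q A hqM hA)
        (betaFix M q (HI A) (betaFixM M q (HI A) τ) -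
          alphaFix M q (HI A) (alphaFixM M q (HI A) τ)) h0 hv) g g₁ g₂ g₃ := by
  obtain ⟨hv, hC⟩ := exists_thickCtx_modThick hA (towerData_modThickK M q A hqM hA)
    (rows_modThickK M q A hqM hA) B hS (Eis.ramGaussK_unif_pow M q A hqM hA (fun _ => rfl)) hτ hτ'' hred hτ₁ hτ₀S hτ₂S
    hσ₁S hG hd hm hH hoH hoVH hω hXY hY₁ hY₂ hπS hE₁S hE₁S' hE₃S hE₃S'
  exact ⟨_, hv, hC⟩

end Concrete

end Fermat.Agent.S36lib.Reg
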